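import Fermat.Agent.S53.P2d
import Fermat.Agent.Lib.MvPSCompleteGeneral
set_option autoImplicit false
set_option linter.unusedSectionVars false

namespace Fermat.Agent.S53lib

open IsLocalRing

section

variable (𝒪 : Type) [CommRing 𝒪]
  {U : Type} [CommRing U] [Algebra 𝒪 U] {d : ℕ} (x : Fin d → U)

/-- polynomial evaluation mod `I`. -/
noncomputable def gI (I : Ideal U) : MvPolynomial (Fin d) 𝒪 →+* U ⧸ I :=
  (Ideal.Quotient.mk I).comp (MvPolynomial.aeval x : MvPolynomial (Fin d) 𝒪 →ₐ[𝒪] U).toRingHom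

theorem gI_apply (I : Ideal U) (p : MvPolynomial (Fin d) 𝒪) :
    gI 𝒪 x I p = Ideal.Quotient.mk I (MvPolynomial.aeval x p) := rfl

theorem factor_gI {I J : Ideal U} (h : I ≤ J) (p : MvPolynomial (Fin d) 𝒪) :
    Ideal.Quotient.factor h (gI 𝒪 x I p) = gI 𝒪 x J p := rfl

theorem gI_kills (I : Ideal U) [IsLocalRing (U ⧸ I)] [IsArtinianRing (U ⧸ I)]
    (hx : ∀ i, ¬ IsUnit (Ideal.Quotient.mk I (x i))) :
    ∃ N : ℕ, ∀ p ∈ MvPolynomial.idealOfVars (Fin d) 𝒪 ^ N, gI 𝒪 x I p = 0 := by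
  obtain ⟨N, hN⟩ := (isArtinianRing_iff_isNilpotent_maximalIdeal (U ⧸ I)).mp inferInstance
  refine ⟨N, fun p hp => ?_⟩
  have h1 : (MvPolynomial.idealOfVars (Fin d) 𝒪).map (gI 𝒪 x I) ≤ maximalIdeal (U ⧸ I) := by
    rw [Ideal.map_span, Ideal.span_le]
    rintro _ ⟨_, ⟨i, rfl⟩, rfl⟩
    rw [gI_apply, MvPolynomial.aeval_X]
    exact hx i
  have h2 : gI 𝒪 x I p ∈ (MvPolynomial.idealOfVars (Fin d) 𝒪 ^ N).map (gI 𝒪 x I) :=
    Ideal.mem_map_of_mem _ hp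
  rw [Ideal.map_pow] at h2
  have h3 := Ideal.pow_right_mono h1 N h2
  rw [hN] at h3
  exact h3

/-- evaluation of power series mod `I`. -/
noncomputable def evN (I : Ideal U) (N : ℕ)
    (h : ∀ p ∈ MvPolynomial.idealOfVars (Fin d) 𝒪 ^ N, gI 𝒪 x I p = 0) :
    MvPowerSeries (Fin d) 𝒪 →+* U ⧸ I :=
  (Ideal.Quotient.lift (MvPolynomial.idealOfVars (Fin d) 𝒪 ^ N) (gI 𝒪 x I) h).comp
    (MvPowerSeries.truncTotalAlgHom (Fin d) 𝒪 N).toRingHom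

theorem evN_apply (I : Ideal U) (N : ℕ)
    (h : ∀ p ∈ MvPolynomial.idealOfVars (Fin d) 𝒪 ^ N, gI 𝒪 x I p = 0)
    (f : MvPowerSeries (Fin d) 𝒪) :
    evN 𝒪 x I N h f = gI 𝒪 x I (MvPowerSeries.truncTotal N f) := rfl

theorem evN_coe (I : Ideal U) (N : ℕ)
    (h : ∀ p ∈ MvPolynomial.idealOfVars (Fin d) 𝒪 ^ N, gI 𝒪 x I p = 0)
    (p : MvPolynomial (Fin d) 𝒪) :
    evN 𝒪 x I N h (p : MvPowerSeries (Fin d) 𝒪) = gI 𝒪 x I p := by
  have h1 := (MvPowerSeries.truncTotalAlgHom (Fin d) 𝒪 N).commutes p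
  change Ideal.Quotient.lift _ (gI 𝒪 x I) h
    (MvPowerSeries.truncTotalAlgHom (Fin d) 𝒪 N (algebraMap _ _ p)) = _
  rw [h1]
  rfl

end

end Fermat.Agent.S53lib
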