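import Fermat.Prelude.Def_GaloisRep_DeformationCondition
import Fermat.Agent.S53.P2e
set_option autoImplicit false

namespace Fermat.Agent.S53lib

open IsLocalRing

section LambdaFacts

variable (𝒪 : Type) [CommRing 𝒪] [IsLocalRing 𝒪] (d : ℕ)

theorem isLocalHom_algebraMap_mvPS :
    IsLocalHom (algebraMap 𝒪 (MvPowerSeries (Fin d) 𝒪)) := by
  constructor
  intro r hr
  rw [MvPowerSeries.isUnit_iff_constantCoeff] at hr
  simpa [MvPowerSeries.algebraMap_apply] using hr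

theorem residue_algebraMap_mvPS_surjective :
    Function.Surjective (residue (MvPowerSeries (Fin d) 𝒪) ∘
      algebraMap 𝒪 (MvPowerSeries (Fin d) 𝒪)) := by
  intro z
  obtain ⟨f, rfl⟩ := residue_surjective z
  refine ⟨MvPowerSeries.constantCoeff f, ?_⟩
  rw [Function.comp_apply, ← sub_eq_zero, ← map_sub, residue_eq_zero_iff, mem_maximalIdeal,
    mem_nonunits_iff, MvPowerSeries.isUnit_iff_constantCoeff]
  simp [MvPowerSeries.algebraMap_apply]

theorem finite_mvPS_quotient [IsNoetherianRing 𝒪] [Finite (ResidueField 𝒪)] (n : ℕ) :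
    Finite (MvPowerSeries (Fin d) 𝒪 ⧸ maximalIdeal (MvPowerSeries (Fin d) 𝒪) ^ n) := by
  have := isLocalHom_algebraMap_mvPS 𝒪 d
  have hs : Function.Surjective
      (ResidueField.map (algebraMap 𝒪 (MvPowerSeries (Fin d) 𝒪))) := by
    intro z
    obtain ⟨r, hr⟩ := residue_algebraMap_mvPS_surjective 𝒪 d z
    exact ⟨residue 𝒪 r, hr⟩
  have : Finite (ResidueField (MvPowerSeries (Fin d) 𝒪)) := Finite.of_surjective _ hs
  exact finite_quotient_iff.mpr ⟨n, le_rfl⟩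

end LambdaFacts

/-- P2 -/
theorem exists_proRep
    (𝒪 : Type) [CommRing 𝒪] [IsLocalRing 𝒪] [IsNoetherianRing 𝒪]
    [IsAdicComplete (maximalIdeal 𝒪) 𝒪] [Finite (ResidueField 𝒪)]
    (U : Type) [CommRing U] [Algebra 𝒪 U] (F : Set (Ideal U))
    (hne : F.Nonempty)
    (hloc : ∀ I ∈ F, ∃ _ : IsLocalRing (U ⧸ I), GaloisRep.IsArtinianTestAlgebra 𝒪 (U ⧸ I))
    (hinf : ∀ I ∈ F, ∀ J ∈ F, I ⊓ J ∈ F)
    (hup : ∀ I ∈ F, ∀ J : Ideal U, I ≤ J → J ≠ ⊤ → J ∈ F)
    (d : ℕ) (x : Fin d → U)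
    (hx : ∀ I ∈ F, ∀ i, ¬ IsUnit (Ideal.Quotient.mk I (x i)))
    (hgen : ∀ I ∈ F, ∀ y : U, ∃ f : MvPolynomial (Fin d) 𝒪, y - MvPolynomial.aeval x f ∈ I) :
    ∃ (R : Type) (_ : CommRing R) (_ : IsLocalRing R) (_ : IsNoetherianRing R)
      (_ : IsAdicComplete (maximalIdeal R) R) (_ : Algebra 𝒪 R)
      (_ : IsLocalHom (algebraMap 𝒪 R)) (u : U →ₐ[𝒪] R),
      Function.Surjective (residue R ∘ algebraMap 𝒪 R) ∧
      (∀ n : ℕ, (maximalIdeal R ^ (n + 1)).comap u ∈ F) ∧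
      (∀ (n : ℕ) (y : R), ∃ z : U, y - u z ∈ maximalIdeal R ^ n) ∧
      (∀ I ∈ F, ∃ n : ℕ, (maximalIdeal R ^ n).comap u ≤ I) := by
  have hloc' : ∀ I ∈ F, IsLocalRing (U ⧸ I) := fun I hI => (hloc I hI).choose
  have hkill : ∀ I ∈ F, ∃ N : ℕ, ∀ p ∈ MvPolynomial.idealOfVars (Fin d) 𝒪 ^ N,
      gI 𝒪 x I p = 0 := by
    intro I hI
    obtain ⟨h1, h2⟩ := hloc I hI
    have := h2.isArtinian
    exact gI_kills 𝒪 x I (hx I hI)
  choose N hN using hkill
  have hsurj : ∀ I hI, Function.Surjective (evN 𝒪 x I (N I hI) (hN I hI)) := by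
    intro I hI y
    obtain ⟨y, rfl⟩ := Ideal.Quotient.mk_surjective y
    obtain ⟨p, hp⟩ := hgen I hI y
    refine ⟨(p : MvPowerSeries (Fin d) 𝒪), ?_⟩
    rw [evN_coe, gI_apply, eq_comm, Ideal.Quotient.eq]
    exact hp
  let E : EvSys (MvPowerSeries (Fin d) 𝒪) U F :=
    { ev := fun I hI => evN 𝒪 x I (N I hI) (hN I hI)
      surj := hsurj
      compat := by
        intro I hI J hJ h
        ext1 f
        rw [RingHom.comp_apply, evN_apply, evN_apply, factor_gI, ← sub_eq_zero, ← map_sub]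
        rcases le_total (N I hI) (N J hJ) with hle | hle
        · have h1 := MvPowerSeries.truncTotal_sub_truncTotal_mem_pow_idealOfVars
            (le_refl (N I hI)) hle f
          rw [← factor_gI 𝒪 x h, hN I hI _ h1, map_zero]
        · have h1 := MvPowerSeries.truncTotal_sub_truncTotal_mem_pow_idealOfVars
            hle (le_refl (N J hJ)) f
          exact hN J hJ _ h1
      nil := by
        intro I hI
        obtain ⟨h1, h2⟩ := hloc I hI
        have := h2.isArtinian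
        obtain ⟨n, hn⟩ := (isArtinianRing_iff_isNilpotent_maximalIdeal (U ⧸ I)).mp inferInstance
        refine ⟨n, ?_⟩
        rw [← Ideal.map_eq_bot_iff_le_ker, Ideal.map_pow,
          map_maximalIdeal_of_surjective _ (hsurj I hI)]
        exact hn }
  have := isLocalHom_algebraMap_mvPS 𝒪 d
  have : IsAdicComplete (maximalIdeal (MvPowerSeries (Fin d) 𝒪)) (MvPowerSeries (Fin d) 𝒪) :=
    Fermat.Agent.Lib.MvPSComplete.isAdicComplete_maximalIdeal
  refine E.exists_proRep_of_evSys 𝒪 (residue_algebraMap_mvPS_surjective 𝒪 d) ?_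
    (finite_mvPS_quotient 𝒪 d) hne hloc' hinf hup
  intro I hI r
  change evN 𝒪 x I (N I hI) (hN I hI) _ = _
  have h1 : algebraMap 𝒪 (MvPowerSeries (Fin d) 𝒪) r =
      ((MvPolynomial.C r : MvPolynomial (Fin d) 𝒪) : MvPowerSeries (Fin d) 𝒪) := by
    rw [MvPolynomial.coe_C, MvPowerSeries.algebraMap_apply]
    rfl
  rw [h1, evN_coe, gI_apply, MvPolynomial.aeval_C]

end Fermat.Agent.S53lib
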