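import Fermat.Agent.S53.Ext
import Fermat.Agent.S53.P2
set_option autoImplicit false
set_option linter.unusedSectionVars false

namespace Fermat.Agent.S53lib

open IsLocalRing GaloisRep

section
variable {𝒪 : Type} [CommRing 𝒪] [IsLocalRing 𝒪] [Finite (ResidueField 𝒪)] {Dt : NData 𝒪}
  {𝒟 : ∀ ⦃A : Type⦄ [CommRing A] [IsLocalRing A] [Algebra 𝒪 A], GaloisRepAdic A → Prop}
  {R : Type} [CommRing R] [IsLocalRing R] [IsNoetherianRing R]
  [IsAdicComplete (maximalIdeal R) R] [Algebra 𝒪 R] [IsLocalHom (algebraMap 𝒪 R)]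
  {u : UU 𝒪 →ₐ[𝒪] R}

theorem type_of_hasMat_rU (h𝒟 : IsDeformationCondition 𝒪 𝒟)
    (hres : Function.Surjective (residue R ∘ algebraMap 𝒪 R))
    (hR1 : ∀ n : ℕ, Adm Dt 𝒟 ((maximalIdeal R ^ (n + 1)).comap u))
    {ρR : GaloisRepAdic R} (hm : HasMat ρR (rU u)) : 𝒟 ρR := by
  refine (h𝒟.iff_forall_surjective ‹IsLocalHom (algebraMap 𝒪 R)› hres ρR).mpr ?_
  intro B _ _ _ hB q hq hqs
  have := hB.isArtinian
  obtain ⟨n, hn⟩ := (isArtinianRing_iff_isNilpotent_maximalIdeal B).mp ‹_›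
  let v : UU 𝒪 →ₐ[𝒪] B := q.comp u
  have hle : (maximalIdeal R ^ (n + 1)).comap u ≤ RingHom.ker v := by
    intro w hw
    have h1 : u w ∈ maximalIdeal R ^ (n + 1) := hw
    have h2 := map_pow_le_of_isLocalHom (q : R →+* B) (n + 1) h1
    rw [pow_succ, hn] at h2
    have h3 : q (u w) = 0 := by simpa using h2
    exact h3
  have hK : Adm Dt 𝒟 (RingHom.ker v) := (hR1 n).of_le h𝒟 hle (RingHom.ker_ne_top _)
  have gK := hK.good
  obtain ⟨_, hT⟩ := hK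
  have hloc : IsLocalHom ((Ideal.kerLiftAlg v : (UU 𝒪 ⧸ RingHom.ker v) →ₐ[𝒪] B) :
      (UU 𝒪 ⧸ RingHom.ker v) →+* B) := ⟨fun x hx => by
    obtain ⟨w, rfl⟩ := Ideal.Quotient.mk_surjective x
    rw [gK.isUnit_iff, ← u_mem_max_iff hR1]
    have h1 : IsUnit (q (u w)) := hx
    have h2 : IsUnit (u w) := hq.map_nonunit _ h1
    simpa using h2⟩
  have hT' := hT.map h𝒟 hB (Ideal.kerLiftAlg v) hloc
  have e : (fun σ => (taut (RingHom.ker v) σ).map (Ideal.kerLiftAlg v)) =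
      fun σ => (rU u σ).map q := by
    funext σ
    ext i j
    rfl
  rw [e] at hT'
  exact hT'.forall_type h𝒟 (hm.baseChangeAlong (q : R →+* B) hq)

theorem adm_comap_homOf (h𝒟 : IsDeformationCondition 𝒪 𝒟)
    {A : Type} [CommRing A] [IsLocalRing A] [IsNoetherianRing A]
    [IsAdicComplete (maximalIdeal A) A] [Algebra 𝒪 A] [IsLocalHom (algebraMap 𝒪 A)]
    (hresA : Function.Surjective (residue A ∘ algebraMap 𝒪 A)) {ρA : GaloisRepAdic A}
    (hdA : 𝒟 ρA) {rA : Gal → M2 A} (hmA : HasMat ρA rA) (hl : Dt.Lifts rA)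
    (hn : Dt.Normalized rA) (n : ℕ) :
    Adm Dt 𝒟 ((maximalIdeal A ^ (n + 1)).comap (homOf rA : UU 𝒪 →ₐ[𝒪] A)) := by
  obtain ⟨_, hB, hmk⟩ := quotient_pow_testAlgebra (𝒪 := 𝒪) A hresA n
  let q : A →ₐ[𝒪] (A ⧸ maximalIdeal A ^ (n + 1)) := Ideal.Quotient.mkₐ 𝒪 _
  have hq : IsLocalHom (q : A →+* (A ⧸ maximalIdeal A ^ (n + 1))) := hmk
  have hT : IsTestLift Dt 𝒟 (A ⧸ maximalIdeal A ^ (n + 1)) (fun σ => (rA σ).map q) :=
    ⟨hB, hl.map q, hn.map q,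
      ρA.baseChangeAlong (q : A →+* (A ⧸ maximalIdeal A ^ (n + 1))) hq,
      hmA.baseChangeAlong (q : A →+* (A ⧸ maximalIdeal A ^ (n + 1))) hq,
      (h𝒟.iff_forall_surjective ‹IsLocalHom (algebraMap 𝒪 A)› hresA ρA).mp hdA hB q hq
        Ideal.Quotient.mk_surjective⟩
  have := Adm.ker h𝒟 hT
  rw [← comp_homOf] at this
  convert this using 1
  ext w
  simp only [Ideal.mem_comap, RingHom.mem_ker]
  exact (Ideal.Quotient.eq_zero_iff_mem).symm

theorem universal_aux (h𝒟 : IsDeformationCondition 𝒪 𝒟)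
    {ρbar : ResidualGaloisRep (ResidueField 𝒪)}
    (hN : HasMatRes ρbar (fun σ => (Dt.ρt σ).map (residue 𝒪)))
    (hR1 : ∀ n : ℕ, Adm Dt 𝒟 ((maximalIdeal R ^ (n + 1)).comap u))
    (hR2 : ∀ (n : ℕ) (y : R), ∃ z, y - u z ∈ maximalIdeal R ^ n)
    (hR3 : ∀ I, Adm Dt 𝒟 I → ∃ n : ℕ, (maximalIdeal R ^ n).comap u ≤ I)
    {ρR : GaloisRepAdic R} (hm : HasMat ρR (rU u))
    (A : Type) [CommRing A] [IsLocalRing A] [IsNoetherianRing A]
    [IsAdicComplete (maximalIdeal A) A] [Algebra 𝒪 A] [IsLocalHom (algebraMap 𝒪 A)]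
    (hresA : Function.Surjective (residue A ∘ algebraMap 𝒪 A)) (ρA : GaloisRepAdic A)
    (hdA : 𝒟 ρA)
    (heA : ρA.residual.IsEquiv (ρbar.baseChangeAlong (ResidueField.map (algebraMap 𝒪 A)))) :
    ∃! φ : R →ₐ[𝒪] A, ∃ hφ : IsLocalHom (φ : R →+* A),
      (ρR.baseChangeAlong (φ : R →+* A) hφ).IsEquiv ρA := by
  obtain ⟨r₀, hm₀, hr₀⟩ := exists_hasMat_of_residual_isEquiv ρA hN _ heA
  have hl₀ : Dt.Lifts r₀ := fun σ i j => by
    rw [hr₀, Matrix.map_apply, ResidueField.map_residue]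
  obtain ⟨rA, hmA, hlA, hnA⟩ := NData.exists_normalized hm₀ hl₀
  let h : UU 𝒪 →ₐ[𝒪] A := homOf rA
  have hcof : ∀ n : ℕ, ∃ N : ℕ, (maximalIdeal R ^ N).comap (u : UU 𝒪 →+* R) ≤
      (maximalIdeal A ^ n).comap (h : UU 𝒪 →+* A) := by
    intro n
    cases n with
    | zero => exact ⟨0, by simp⟩
    | succ n => exact hR3 _ (adm_comap_homOf h𝒟 hresA hdA hmA hlA hnA n)
  obtain ⟨φ, hφu, hφc⟩ := exists_extension (u : UU 𝒪 →+* R) (h : UU 𝒪 →+* A) hR2 hcof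
  have hφu' : ∀ z, φ (u z) = h z := hφu
  let Φ : R →ₐ[𝒪] A := { φ with
    commutes' := fun c => by
      have h1 := hφu' (algebraMap 𝒪 (UU 𝒪) c)
      rw [AlgHom.commutes, AlgHom.commutes] at h1
      exact h1 }
  have hΦloc : IsLocalHom (Φ : R →+* A) := ⟨fun y hy => by
    by_contra hy'
    have hy1 : y ∈ maximalIdeal R := hy'
    obtain ⟨N, hN'⟩ := hφc 1
    obtain ⟨z, hz⟩ := hR2 (N + 1) y
    have h1 : φ (y - u z) ∈ maximalIdeal A ^ 1 :=
      hN' _ (Ideal.pow_le_pow_right (Nat.le_succ N) hz)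
    have h2 : y - u z ∈ maximalIdeal R := Ideal.pow_le_self (Nat.succ_ne_zero N) hz
    have h3 : u z ∈ maximalIdeal R := by
      have := Ideal.sub_mem _ hy1 h2
      simpa using this
    have h4 : h z ∈ maximalIdeal A :=
      (homOf_mem_maximalIdeal_iff hlA z).mpr ((u_mem_max_iff hR1 z).mp h3)
    rw [pow_one, map_sub, hφu'] at h1
    have h5 : φ y ∈ maximalIdeal A := by
      have := Ideal.add_mem _ h1 h4
      simpa using this
    exact h5 hy⟩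
  have hcomp : ∀ (Ψ : R →ₐ[𝒪] A), (fun σ => (rU u σ).map Ψ) = fun σ => (gen 𝒪 σ).map (Ψ.comp u) :=
    fun Ψ => by
      funext σ
      ext i j
      rfl
  have hΦr : (fun σ => (rU u σ).map Φ) = rA := by
    have h1 : Φ.comp u = h := AlgHom.ext hφu'
    rw [hcomp, h1]
    funext σ
    exact map_gen_homOf rA σ
  refine ⟨Φ, ⟨hΦloc, ?_⟩, ?_⟩
  · have := hm.baseChangeAlong (Φ : R →+* A) hΦloc
    have h2 : HasMat (ρR.baseChangeAlong (Φ : R →+* A) hΦloc) rA := by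
      rw [← hΦr]; exact this
    exact h2.isEquiv hmA
  · rintro Ψ ⟨hΨloc, hΨe⟩
    have h1 := hm.baseChangeAlong (Ψ : R →+* A) hΨloc
    have h2 : (fun σ => (rU u σ).map Ψ) = rA :=
      NData.eq_of_isEquiv (Dt := Dt) h1 hmA hΨe ((rU_lifts hR1).map Ψ) hlA
        ((rU_norm hR1).map Ψ) hnA
    have h3 : Ψ.comp u = h := by
      apply homOf_unique
      intro g
      have := congrFun h2 g
      rw [← this]
      exact (congrFun (hcomp Ψ) g).symm
    apply AlgHom.ext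
    intro y
    rw [← sub_eq_zero]
    apply eq_zero_of_forall_mem_pow
    intro n
    obtain ⟨z, hz⟩ := hR2 n y
    have e1 : Ψ (u z) = Φ (u z) := by
      have a1 : Ψ (u z) = h z := AlgHom.congr_fun h3 z
      rw [a1]
      exact (hφu' z).symm
    have e2 : Ψ y - Φ y = Ψ (y - u z) - Φ (y - u z) := by
      rw [map_sub, map_sub, e1]; ring
    rw [e2]
    exact Ideal.sub_mem _ (map_pow_le_of_isLocalHom (Ψ : R →+* A) n hz)
      (map_pow_le_of_isLocalHom (Φ : R →+* A) n hz)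

end

theorem main
    (𝒪 : Type) [CommRing 𝒪] [IsDomain 𝒪] [IsDiscreteValuationRing 𝒪]
    [IsAdicComplete (IsLocalRing.maximalIdeal 𝒪) 𝒪] [Finite (IsLocalRing.ResidueField 𝒪)]
    (ρbar : ResidualGaloisRep (IsLocalRing.ResidueField 𝒪))
    (𝒟 : ∀ ⦃A : Type⦄ [CommRing A] [IsLocalRing A] [Algebra 𝒪 A], GaloisRepAdic A → Prop)
    (habs : ρbar.IsAbsolutelyIrreducible)
    (h𝒟 : GaloisRep.IsDeformationCondition 𝒪 𝒟)
    (hbar : 𝒟 (GaloisRepAdic.ofResidualGaloisRep ρbar))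
    (hfin : GaloisRep.TangentFinite 𝒪 ρbar 𝒟) :
    Nonempty (GaloisRep.DeformationRingData 𝒪 ρbar 𝒟) := by
  obtain ⟨Dt, hN⟩ := exists_ndata ρbar habs
  obtain ⟨I₀, hI₀, hI₀'⟩ := exists_I0 h𝒟 hN hbar hfin
  obtain ⟨d, x, hx, hgen⟩ := exists_generators hI₀ hI₀'
  obtain ⟨R, _, _, _, _, _, _, u, hres, hR1, hR2, hR3⟩ :=
    exists_proRep 𝒪 (UU 𝒪) {I | Adm Dt 𝒟 I} ⟨I₀, hI₀⟩
      (fun I hI => by obtain ⟨h1, h2⟩ := hI; exact ⟨h1, h2.test⟩)
      (fun I hI J hJ => Adm.inf h𝒟 hI hJ)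
      (fun I hI J hIJ hJ => Adm.of_le h𝒟 hI hIJ hJ) d x
      (fun I hI i => by
        rw [(Adm.good hI).isUnit_iff]
        simpa using hx i) hgen
  obtain ⟨ρR, hm⟩ := exists_of_mat (rU u) (rU_one hR1) (rU_mul hR1) (rU_cont hR1)
  exact ⟨{ R := R
           residue_surjective := hres
           absIrr := habs
           ρ := ρR
           isOfType := type_of_hasMat_rU h𝒟 hres hR1 hm
           residual_isEquiv := hm.residual_isEquiv hN _ (fun σ i j => by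
             rw [rU_lifts hR1 σ i j, Matrix.map_apply, ResidueField.map_residue])
           universal := fun A _ _ _ _ _ _ hresA ρA hdA heA =>
             universal_aux h𝒟 hN hR1 hR2 hR3 hm A hresA ρA hdA heA }⟩

end Fermat.Agent.S53lib
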