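import Fermat.Agent.S53.TestLift
set_option autoImplicit false
set_option linter.unusedSectionVars false

namespace Fermat.Agent.S53lib

open IsLocalRing GaloisRep

abbrev UU (𝒪 : Type) [CommRing 𝒪] := MvPolynomial (Gal × Fin 2 × Fin 2) 𝒪

variable {𝒪 : Type} [CommRing 𝒪] [IsLocalRing 𝒪]

noncomputable def homOf {A : Type} [CommRing A] [Algebra 𝒪 A] (r : Gal → M2 A) : UU 𝒪 →ₐ[𝒪] A :=
  MvPolynomial.aeval fun x => r x.1 x.2.1 x.2.2

noncomputable def gen (𝒪 : Type) [CommRing 𝒪] (g : Gal) : M2 (UU 𝒪) :=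
  Matrix.of fun i j => MvPolynomial.X (g, i, j)

theorem map_gen_homOf {A : Type} [CommRing A] [Algebra 𝒪 A] (r : Gal → M2 A) (g : Gal) :
    (gen 𝒪 g).map (homOf r) = r g := by
  ext i j
  simp [gen, homOf]

theorem homOf_unique {A : Type} [CommRing A] [Algebra 𝒪 A] (r : Gal → M2 A)
    (φ : UU 𝒪 →ₐ[𝒪] A) (h : ∀ g, (gen 𝒪 g).map φ = r g) : φ = homOf r := by
  apply MvPolynomial.algHom_ext
  rintro ⟨g, i, j⟩
  have := congrFun (congrFun (h g) i) j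
  simp only [gen, Matrix.map_apply, Matrix.of_apply] at this
  simp [homOf, this]

theorem comp_homOf {A B : Type} [CommRing A] [Algebra 𝒪 A] [CommRing B] [Algebra 𝒪 B]
    (r : Gal → M2 A) (φ : A →ₐ[𝒪] B) : φ.comp (homOf r) = homOf (fun σ => (r σ).map φ) := by
  apply homOf_unique
  intro g
  rw [← map_gen_homOf (𝒪 := 𝒪) r g]
  ext i j
  simp

noncomputable def taut (I : Ideal (UU 𝒪)) : Gal → M2 (UU 𝒪 ⧸ I) :=
  fun g => (gen 𝒪 g).map (Ideal.Quotient.mkₐ 𝒪 I)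

theorem homOf_taut (I : Ideal (UU 𝒪)) : homOf (taut I) = Ideal.Quotient.mkₐ 𝒪 I :=
  (homOf_unique _ _ fun _ => rfl).symm

variable (Dt : NData 𝒪)

noncomputable def evk : UU 𝒪 →ₐ[𝒪] ResidueField 𝒪 :=
  homOf (fun σ => (Dt.ρt σ).map (residue 𝒪))

noncomputable def mU : Ideal (UU 𝒪) := RingHom.ker (evk Dt)

theorem evk_C (c : 𝒪) : evk Dt (MvPolynomial.C c) = residue 𝒪 c := by
  simp [evk, homOf]

theorem evk_surjective : Function.Surjective (evk Dt) := fun x => by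
  obtain ⟨c, rfl⟩ := residue_surjective x
  exact ⟨MvPolynomial.C c, evk_C Dt c⟩

instance mU_isMaximal : (mU Dt).IsMaximal :=
  RingHom.ker_isMaximal_of_surjective _ (evk_surjective Dt)

variable {Dt}

theorem residue_homOf {A : Type} [CommRing A] [IsLocalRing A] [Algebra 𝒪 A]
    [IsLocalHom (algebraMap 𝒪 A)] {r : Gal → M2 A} (h : Dt.Lifts r) (u : UU 𝒪) :
    residue A (homOf r u) = ResidueField.map (algebraMap 𝒪 A) (evk Dt u) := by
  have : (residue A).comp ((homOf r : UU 𝒪 →ₐ[𝒪] A) : UU 𝒪 →+* A) =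
      (ResidueField.map (algebraMap 𝒪 A)).comp (evk Dt : UU 𝒪 →+* ResidueField 𝒪) := by
    apply MvPolynomial.ringHom_ext
    · intro c
      simp only [RingHom.comp_apply, RingHom.coe_coe, evk_C, ResidueField.map_residue]
      simp [homOf]
    · rintro ⟨g, i, j⟩
      simp only [RingHom.comp_apply, RingHom.coe_coe]
      simp only [homOf, evk, MvPolynomial.aeval_X, Matrix.map_apply, ResidueField.map_residue]
      exact h g i j
  exact RingHom.congr_fun this u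

theorem homOf_mem_maximalIdeal_iff {A : Type} [CommRing A] [IsLocalRing A] [Algebra 𝒪 A]
    [IsLocalHom (algebraMap 𝒪 A)] {r : Gal → M2 A} (h : Dt.Lifts r) (u : UU 𝒪) :
    homOf r u ∈ maximalIdeal A ↔ u ∈ mU Dt := by
  rw [← residue_eq_zero_iff, residue_homOf h, map_eq_zero]
  rfl

/-- ideals between a power of `mU` and `mU` -/
def Good (Dt : NData 𝒪) (K : Ideal (UU 𝒪)) : Prop := K ≤ mU Dt ∧ ∃ N : ℕ, mU Dt ^ N ≤ K

theorem Good.isUnit_iff {K : Ideal (UU 𝒪)} (hK : Good Dt K) (u : UU 𝒪) :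
    IsUnit (Ideal.Quotient.mk K u) ↔ u ∉ mU Dt := by
  constructor
  · intro hu hmem
    let ev' : UU 𝒪 ⧸ K →+* ResidueField 𝒪 :=
      Ideal.Quotient.lift K (evk Dt : UU 𝒪 →+* ResidueField 𝒪) (fun a ha => hK.1 ha)
    have h1 := hu.map ev'
    have h2 : ev' (Ideal.Quotient.mk K u) = 0 := hmem
    rw [h2] at h1
    exact not_isUnit_zero h1
  · intro hu
    obtain ⟨c, hc⟩ := residue_surjective (evk Dt u)
    have hcu : IsUnit c := by
      by_contra hcu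
      apply hu
      have : residue 𝒪 c = 0 := (residue_eq_zero_iff _).mpr hcu
      rw [this] at hc
      exact hc.symm
    have hn : u - MvPolynomial.C c ∈ mU Dt := by
      show evk Dt (u - MvPolynomial.C c) = 0
      rw [map_sub, evk_C, hc, sub_self]
    obtain ⟨N, hN⟩ := hK.2
    have hnil : IsNilpotent (Ideal.Quotient.mk K (u - MvPolynomial.C c)) :=
      ⟨N, by rw [← map_pow]; exact Ideal.Quotient.eq_zero_iff_mem.mpr (hN (Ideal.pow_mem_pow hn N))⟩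
    have : Ideal.Quotient.mk K u =
        Ideal.Quotient.mk K (MvPolynomial.C c) + Ideal.Quotient.mk K (u - MvPolynomial.C c) := by
      rw [← map_add]; congr 1; ring
    rw [this]
    exact hnil.isUnit_add_left_of_commute ((hcu.map MvPolynomial.C).map (Ideal.Quotient.mk K))
      (Commute.all _ _)

theorem Good.isLocalRing {K : Ideal (UU 𝒪)} (hK : Good Dt K) : IsLocalRing (UU 𝒪 ⧸ K) := by
  have : Nontrivial (UU 𝒪 ⧸ K) := Ideal.Quotient.nontrivial_iff.mpr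
    (fun h => (mU_isMaximal Dt).ne_top (top_le_iff.mp (h ▸ hK.1)))
  apply IsLocalRing.of_nonunits_add
  intro a b ha hb
  obtain ⟨a, rfl⟩ := Ideal.Quotient.mk_surjective a
  obtain ⟨b, rfl⟩ := Ideal.Quotient.mk_surjective b
  rw [mem_nonunits_iff, hK.isUnit_iff, not_not] at ha hb
  rw [← map_add, mem_nonunits_iff, hK.isUnit_iff, not_not]
  exact Ideal.add_mem _ ha hb

theorem Good.mem_maximalIdeal_iff {K : Ideal (UU 𝒪)} (hK : Good Dt K) [IsLocalRing (UU 𝒪 ⧸ K)]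
    (u : UU 𝒪) : Ideal.Quotient.mk K u ∈ maximalIdeal (UU 𝒪 ⧸ K) ↔ u ∈ mU Dt := by
  rw [mem_maximalIdeal, mem_nonunits_iff, hK.isUnit_iff, not_not]

theorem exists_C_sub_mem (Dt : NData 𝒪) (u : UU 𝒪) : ∃ c : 𝒪, u - MvPolynomial.C c ∈ mU Dt := by
  obtain ⟨c, hc⟩ := residue_surjective (evk Dt u)
  refine ⟨c, ?_⟩
  show evk Dt (u - MvPolynomial.C c) = 0
  rw [map_sub, evk_C, hc, sub_self]

theorem C_mem_mU_iff (c : 𝒪) : MvPolynomial.C c ∈ mU Dt ↔ c ∈ maximalIdeal 𝒪 := by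
  rw [← residue_eq_zero_iff, ← evk_C Dt]
  rfl

theorem Good.testAlgebra {K : Ideal (UU 𝒪)} (hK : Good Dt K) [IsLocalRing (UU 𝒪 ⧸ K)]
    [Finite (UU 𝒪 ⧸ K)] : IsArtinianTestAlgebra 𝒪 (UU 𝒪 ⧸ K) where
  isLocalHom := ⟨fun c hc => by
    have h1 : IsUnit (Ideal.Quotient.mk K (MvPolynomial.C c)) := hc
    rw [hK.isUnit_iff, C_mem_mU_iff] at h1
    simpa using h1⟩
  residue_surjective := fun y => by
    obtain ⟨x, rfl⟩ := residue_surjective y
    obtain ⟨u, rfl⟩ := Ideal.Quotient.mk_surjective x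
    obtain ⟨c, hc⟩ := exists_C_sub_mem Dt u
    refine ⟨c, ?_⟩
    have h1 := (hK.mem_maximalIdeal_iff _).mpr hc
    rw [← residue_eq_zero_iff, map_sub, map_sub, sub_eq_zero] at h1
    exact h1.symm
  isArtinian := inferInstance

theorem Good.factor_isLocalHom {K K' : Ideal (UU 𝒪)} (hK : Good Dt K) (hK' : Good Dt K')
    (h : K ≤ K') :
    IsLocalHom ((Ideal.Quotient.factorₐ 𝒪 h : (UU 𝒪 ⧸ K) →ₐ[𝒪] (UU 𝒪 ⧸ K')) :
      (UU 𝒪 ⧸ K) →+* (UU 𝒪 ⧸ K')) := ⟨fun x hx => by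
  obtain ⟨u, rfl⟩ := Ideal.Quotient.mk_surjective x
  rw [hK.isUnit_iff]
  have h1 : IsUnit (Ideal.Quotient.mk K' u) := hx
  rwa [hK'.isUnit_iff] at h1⟩

theorem taut_map_factor {K K' : Ideal (UU 𝒪)} (h : K ≤ K') :
    (fun σ => (taut K σ).map (Ideal.Quotient.factorₐ 𝒪 h)) = taut K' := by
  funext σ
  ext i j
  rfl

theorem finite_of_testAlgebra [Finite (ResidueField 𝒪)] {A : Type} [CommRing A]
    [IsLocalRing A] [Algebra 𝒪 A] (h : IsArtinianTestAlgebra 𝒪 A) : Finite A := by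
  have := h.isLocalHom
  have := h.isArtinian
  have hs : Function.Surjective (ResidueField.map (algebraMap 𝒪 A)) := fun y => by
    obtain ⟨c, rfl⟩ := h.residue_surjective y
    exact ⟨residue 𝒪 c, ResidueField.map_residue _ _⟩
  have hf : Finite (A ⧸ maximalIdeal A) := Finite.of_surjective _ hs
  obtain ⟨n, hn⟩ := (isArtinianRing_iff_isNilpotent_maximalIdeal A).mp ‹_›
  have h2 : Finite (A ⧸ maximalIdeal A ^ n) :=
    Ideal.finite_quotient_pow (IsNoetherian.noetherian _) n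
  rw [hn] at h2
  exact Finite.of_equiv _ (RingEquiv.quotientBot A).toEquiv

/-- Admissible ideals. -/
def Adm (Dt : NData 𝒪)
    (𝒟 : ∀ ⦃A : Type⦄ [CommRing A] [IsLocalRing A] [Algebra 𝒪 A], GaloisRepAdic A → Prop)
    (I : Ideal (UU 𝒪)) : Prop :=
  ∃ _ : IsLocalRing (UU 𝒪 ⧸ I), IsTestLift Dt 𝒟 (UU 𝒪 ⧸ I) (taut I)

variable {𝒟 : ∀ ⦃A : Type⦄ [CommRing A] [IsLocalRing A] [Algebra 𝒪 A], GaloisRepAdic A → Prop}

theorem good_ker {A : Type} [CommRing A] [IsLocalRing A] [Algebra 𝒪 A] {r : Gal → M2 A}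
    (ht : IsArtinianTestAlgebra 𝒪 A) (hl : Dt.Lifts r) :
    Good Dt (RingHom.ker (homOf r : UU 𝒪 →ₐ[𝒪] A)) := by
  have := ht.isLocalHom
  have := ht.isArtinian
  refine ⟨fun u hu => ?_, ?_⟩
  · rw [← homOf_mem_maximalIdeal_iff hl]
    have : homOf r u = 0 := hu
    rw [this]
    exact Ideal.zero_mem _
  · obtain ⟨n, hn⟩ := (isArtinianRing_iff_isNilpotent_maximalIdeal A).mp ‹_›
    refine ⟨n, fun x hx => ?_⟩
    have h1 : Ideal.map (homOf r : UU 𝒪 →ₐ[𝒪] A) (mU Dt) ≤ maximalIdeal A := by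
      rw [Ideal.map_le_iff_le_comap]
      intro u hu
      exact (homOf_mem_maximalIdeal_iff hl u).mpr hu
    have h2 : homOf r x ∈ Ideal.map (homOf r : UU 𝒪 →ₐ[𝒪] A) (mU Dt ^ n) :=
      Ideal.mem_map_of_mem _ hx
    rw [Ideal.map_pow] at h2
    have h3 := Ideal.pow_right_mono h1 n h2
    rw [hn] at h3
    exact h3

theorem Adm.good {I : Ideal (UU 𝒪)} (h : Adm Dt 𝒟 I) : Good Dt I := by
  obtain ⟨_, h⟩ := h
  have := good_ker h.test h.lifts
  rw [homOf_taut] at this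
  have h2 : RingHom.ker (Ideal.Quotient.mkₐ 𝒪 I) = I := Ideal.Quotient.mkₐ_ker 𝒪 I
  rwa [h2] at this

theorem Adm.finite [Finite (ResidueField 𝒪)] {I : Ideal (UU 𝒪)} (h : Adm Dt 𝒟 I) :
    Finite (UU 𝒪 ⧸ I) := by
  obtain ⟨_, h⟩ := h
  exact finite_of_testAlgebra h.test

theorem good_of_le {I J : Ideal (UU 𝒪)} (hI : Good Dt I) (hIJ : I ≤ J) (hJ : J ≠ ⊤) :
    Good Dt J := by
  obtain ⟨N, hN⟩ := hI.2
  refine ⟨?_, N, hN.trans hIJ⟩
  obtain ⟨M, hM, hJM⟩ := Ideal.exists_le_maximal J hJ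
  have h1 : mU Dt ≤ M := hM.isPrime.le_of_pow_le ((hN.trans hIJ).trans hJM)
  rw [(mU_isMaximal Dt).eq_of_le hM.ne_top h1]
  exact hJM

theorem Adm.of_le [Finite (ResidueField 𝒪)] (h𝒟 : IsDeformationCondition 𝒪 𝒟)
    {I J : Ideal (UU 𝒪)} (hI : Adm Dt 𝒟 I) (hIJ : I ≤ J) (hJ : J ≠ ⊤) : Adm Dt 𝒟 J := by
  have gI := hI.good
  have gJ := good_of_le gI hIJ hJ
  have := hI.finite
  obtain ⟨_, h⟩ := hI
  have := gJ.isLocalRing
  have : Finite (UU 𝒪 ⧸ J) :=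
    Finite.of_surjective _ (Ideal.Quotient.factor_surjective hIJ)
  refine ⟨inferInstance, ?_⟩
  have := h.map h𝒟 gJ.testAlgebra (Ideal.Quotient.factorₐ 𝒪 hIJ) (gI.factor_isLocalHom gJ hIJ)
  rwa [taut_map_factor] at this

theorem Adm.ker [Finite (ResidueField 𝒪)] (h𝒟 : IsDeformationCondition 𝒪 𝒟)
    {A : Type} [CommRing A] [IsLocalRing A] [Algebra 𝒪 A] {r : Gal → M2 A}
    (h : IsTestLift Dt 𝒟 A r) : Adm Dt 𝒟 (RingHom.ker (homOf r : UU 𝒪 →ₐ[𝒪] A)) := by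
  have gK := good_ker h.test h.lifts
  have := gK.isLocalRing
  have := finite_of_testAlgebra h.test
  have := h.test.isLocalHom
  have hinj := Ideal.kerLiftAlg_injective (homOf r : UU 𝒪 →ₐ[𝒪] A)
  have : Finite (UU 𝒪 ⧸ RingHom.ker (homOf r : UU 𝒪 →ₐ[𝒪] A)) := Finite.of_injective _ hinj
  refine ⟨inferInstance, ?_⟩
  refine IsTestLift.of_injective h𝒟 gK.testAlgebra (Ideal.kerLiftAlg (homOf r)) ⟨fun x hx => ?_⟩
    hinj ?_
  · obtain ⟨u, rfl⟩ := Ideal.Quotient.mk_surjective x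
    rw [gK.isUnit_iff, ← homOf_mem_maximalIdeal_iff h.lifts]
    have h1 : IsUnit (homOf r u) := hx
    simpa using h1
  · have : (fun σ => (taut (RingHom.ker (homOf r : UU 𝒪 →ₐ[𝒪] A)) σ).map
        (Ideal.kerLiftAlg (homOf r))) = r := by
      funext σ
      rw [← map_gen_homOf (𝒪 := 𝒪) r σ]
      ext i j
      rfl
    rwa [this]

theorem Adm.inf [Finite (ResidueField 𝒪)] (h𝒟 : IsDeformationCondition 𝒪 𝒟)
    {I J : Ideal (UU 𝒪)} (hI : Adm Dt 𝒟 I) (hJ : Adm Dt 𝒟 J) : Adm Dt 𝒟 (I ⊓ J) := by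
  have gI := hI.good
  have gJ := hJ.good
  have := hI.finite
  have := hJ.finite
  obtain ⟨_, hI⟩ := hI
  obtain ⟨_, hJ⟩ := hJ
  obtain ⟨N₁, hN₁⟩ := gI.2
  obtain ⟨N₂, hN₂⟩ := gJ.2
  have gP : Good Dt (I ⊓ J) := ⟨inf_le_left.trans gI.1, N₁ + N₂,
    le_inf ((Ideal.pow_le_pow_right (Nat.le_add_right _ _)).trans hN₁)
      ((Ideal.pow_le_pow_right (Nat.le_add_left _ _)).trans hN₂)⟩
  have gC : Good Dt (I ⊔ J) := ⟨sup_le gI.1 gJ.1, N₁, hN₁.trans le_sup_left⟩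
  have := gP.isLocalRing
  have := gC.isLocalRing
  let pA : (UU 𝒪 ⧸ (I ⊓ J)) →ₐ[𝒪] (UU 𝒪 ⧸ I) := Ideal.Quotient.factorₐ 𝒪 inf_le_left
  let pB : (UU 𝒪 ⧸ (I ⊓ J)) →ₐ[𝒪] (UU 𝒪 ⧸ J) := Ideal.Quotient.factorₐ 𝒪 inf_le_right
  let f : (UU 𝒪 ⧸ I) →ₐ[𝒪] (UU 𝒪 ⧸ (I ⊔ J)) := Ideal.Quotient.factorₐ 𝒪 le_sup_left
  let g : (UU 𝒪 ⧸ J) →ₐ[𝒪] (UU 𝒪 ⧸ (I ⊔ J)) := Ideal.Quotient.factorₐ 𝒪 le_sup_right
  have hinj : Function.Injective (fun x => (pA x, pB x)) := by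
    intro x y hxy
    obtain ⟨u, rfl⟩ := Ideal.Quotient.mk_surjective x
    obtain ⟨v, rfl⟩ := Ideal.Quotient.mk_surjective y
    have h1 : Ideal.Quotient.mk I u = Ideal.Quotient.mk I v := congrArg Prod.fst hxy
    have h2 : Ideal.Quotient.mk J u = Ideal.Quotient.mk J v := congrArg Prod.snd hxy
    rw [Ideal.Quotient.eq] at h1 h2 ⊢
    exact ⟨h1, h2⟩
  have : Finite (UU 𝒪 ⧸ (I ⊓ J)) := Finite.of_injective _ hinj
  have : Finite (UU 𝒪 ⧸ (I ⊔ J)) :=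
    Finite.of_surjective _ (Ideal.Quotient.factor_surjective (le_sup_left : I ≤ I ⊔ J))
  refine ⟨inferInstance, ?_⟩
  refine IsTestLift.of_fibre h𝒟 gC.testAlgebra gP.testAlgebra f g pA pB
    (gP.factor_isLocalHom gI _) (gP.factor_isLocalHom gJ _) ?_ hinj ?_ ?_ ?_
  · apply AlgHom.ext
    intro x
    obtain ⟨u, rfl⟩ := Ideal.Quotient.mk_surjective x
    rfl
  · intro a b hab
    obtain ⟨u, rfl⟩ := Ideal.Quotient.mk_surjective a
    obtain ⟨v, rfl⟩ := Ideal.Quotient.mk_surjective b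
    have h1 : Ideal.Quotient.mk (I ⊔ J) u = Ideal.Quotient.mk (I ⊔ J) v := hab
    rw [Ideal.Quotient.eq, Submodule.mem_sup] at h1
    obtain ⟨i, hi, j, hj, hij⟩ := h1
    refine ⟨Ideal.Quotient.mk _ (u - i), ?_, ?_⟩
    · show Ideal.Quotient.mk I (u - i) = Ideal.Quotient.mk I u
      rw [Ideal.Quotient.eq]
      simpa using I.neg_mem hi
    · show Ideal.Quotient.mk J (u - i) = Ideal.Quotient.mk J v
      rw [Ideal.Quotient.eq]
      have : u - i - v = j := by linear_combination -hij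
      rwa [this]
  · rw [taut_map_factor]; exact hI
  · rw [taut_map_factor]; exact hJ

end Fermat.Agent.S53lib
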