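import Fermat.Statements.S53

set_option autoImplicit false

/-!
# P3 of S53: Burnside's theorem in dimension two
-/

namespace Fermat.Agent.S53lib

open Matrix

section Burnside

variable {K : Type*} [Field K]

/-- A matrix is determined by its values on two vectors `v`, `y` with `y` not a multiple of `v`. -/
theorem matrix_eq_of_mulVec_eq {v y : Fin 2 → K} (hdet : v 0 * y 1 - v 1 * y 0 ≠ 0)
    {B B' : Matrix (Fin 2) (Fin 2) K} (hv : B *ᵥ v = B' *ᵥ v) (hy : B *ᵥ y = B' *ᵥ y) :
    B = B' := by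
  have key : ∀ i : Fin 2, B i 0 = B' i 0 ∧ B i 1 = B' i 1 := by
    intro i
    have h1 := congrFun hv i
    have h2 := congrFun hy i
    simp only [Matrix.mulVec, dotProduct, Fin.sum_univ_two] at h1 h2
    constructor
    · have : (B i 0 - B' i 0) * (v 0 * y 1 - v 1 * y 0) = 0 := by
        linear_combination y 1 * h1 - v 1 * h2
      rcases mul_eq_zero.mp this with h | h
      · exact sub_eq_zero.mp h
      · exact absurd h hdet
    · have : (B i 1 - B' i 1) * (v 0 * y 1 - v 1 * y 0) = 0 := by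
        linear_combination v 0 * h2 - y 0 * h1
      rcases mul_eq_zero.mp this with h | h
      · exact sub_eq_zero.mp h
      · exact absurd h hdet
  ext i j
  fin_cases j
  · exact (key i).1
  · exact (key i).2

/-- Burnside's theorem for `2 × 2` matrices over an algebraically closed field. -/
theorem span_eq_top_of_irreducible [IsAlgClosed K] (𝒮 : Set (Matrix (Fin 2) (Fin 2) K))
    (h1 : (1 : Matrix (Fin 2) (Fin 2) K) ∈ 𝒮) (hmul : ∀ M ∈ 𝒮, ∀ M' ∈ 𝒮, M * M' ∈ 𝒮)
    (hirr : ∀ W : Submodule K (Fin 2 → K), (∀ M ∈ 𝒮, ∀ x ∈ W, M *ᵥ x ∈ W) → W = ⊥ ∨ W = ⊤) :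
    Submodule.span K 𝒮 = ⊤ := by
  classical
  set A := Submodule.span K 𝒮 with hA
  have hA1 : (1 : Matrix (Fin 2) (Fin 2) K) ∈ A := Submodule.subset_span h1
  have hAmul : ∀ a ∈ A, ∀ a' ∈ A, a * a' ∈ A := by
    intro a ha a' ha'
    have h2 : A * A ≤ A := by
      rw [hA, Submodule.span_mul_span]
      apply Submodule.span_mono
      rintro _ ⟨M, hM, M', hM', rfl⟩
      exact hmul M hM M' hM'
    exact h2 (Submodule.mul_mem_mul ha ha')
  -- (i) transitivity
  have htrans : ∀ z : Fin 2 → K, z ≠ 0 → ∀ x : Fin 2 → K, ∃ a ∈ A, a *ᵥ z = x := by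
    intro z hz x
    let ev : Matrix (Fin 2) (Fin 2) K →ₗ[K] (Fin 2 → K) :=
      { toFun := fun a => a *ᵥ z
        map_add' := fun a b => Matrix.add_mulVec a b z
        map_smul' := fun c a => Matrix.smul_mulVec c a z }
    let W : Submodule K (Fin 2 → K) := A.map ev
    have hWstab : ∀ M ∈ 𝒮, ∀ x ∈ W, M *ᵥ x ∈ W := by
      rintro M hM _ ⟨a, ha, rfl⟩
      refine ⟨M * a, hAmul M (Submodule.subset_span hM) a ha, ?_⟩
      change (M * a) *ᵥ z = M *ᵥ (a *ᵥ z)
      rw [Matrix.mulVec_mulVec]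
    have hzW : z ∈ W := ⟨1, hA1, by change (1 : Matrix (Fin 2) (Fin 2) K) *ᵥ z = z; simp⟩
    rcases hirr W hWstab with hW | hW
    · rw [hW, Submodule.mem_bot] at hzW
      exact absurd hzW hz
    · have : x ∈ W := hW ▸ Submodule.mem_top
      obtain ⟨a, ha, rfl⟩ := this
      exact ⟨a, ha, rfl⟩
  -- (ii) a non-scalar element
  have hns : ∃ T ∈ 𝒮, ∀ c : K, T ≠ c • (1 : Matrix (Fin 2) (Fin 2) K) := by
    by_contra hcon
    push Not at hcon
    let e0 : Fin 2 → K := ![1, 0]
    have hstab : ∀ M ∈ 𝒮, ∀ x ∈ Submodule.span K {e0}, M *ᵥ x ∈ Submodule.span K {e0} := by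
      intro M hM x hx
      obtain ⟨c, hc⟩ := hcon M hM
      rw [hc, Matrix.smul_mulVec, Matrix.one_mulVec]
      exact Submodule.smul_mem _ _ hx
    rcases hirr _ hstab with h | h
    · have : e0 ∈ Submodule.span K {e0} := Submodule.mem_span_singleton_self e0
      rw [h, Submodule.mem_bot] at this
      have := congrFun this 0
      simp [e0] at this
    · have : (![0, 1] : Fin 2 → K) ∈ Submodule.span K {e0} := h ▸ Submodule.mem_top
      obtain ⟨c, hc⟩ := Submodule.mem_span_singleton.mp this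
      have := congrFun hc 1
      simp [e0] at this
  obtain ⟨T, hT𝒮, hT⟩ := hns
  obtain ⟨lam, hlam⟩ := Module.End.exists_eigenvalue (Matrix.toLin' T)
  obtain ⟨v, hv⟩ := hlam.exists_hasEigenvector
  have hv0 : v ≠ 0 := hv.2
  have hTv : T *ᵥ v = lam • v := by
    have := hv.apply_eq_smul
    simpa using this
  set S : Matrix (Fin 2) (Fin 2) K := T - lam • 1 with hS
  have hSA : S ∈ A :=
    Submodule.sub_mem _ (Submodule.subset_span hT𝒮) (Submodule.smul_mem _ _ hA1)
  have hSv : S *ᵥ v = 0 := by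
    rw [hS, Matrix.sub_mulVec, Matrix.smul_mulVec, Matrix.one_mulVec, hTv, sub_self]
  have hS0 : S ≠ 0 := by
    intro h
    exact hT lam (sub_eq_zero.mp h)
  obtain ⟨y, hy⟩ : ∃ y, S *ᵥ y ≠ 0 := by
    by_contra hcon
    push Not at hcon
    apply hS0
    have : Matrix.toLin' S = 0 := LinearMap.ext fun x => by simpa using hcon x
    simpa using this
  set u := S *ᵥ y with hu
  -- (iii) independence
  have hdet : v 0 * y 1 - v 1 * y 0 ≠ 0 := by
    intro hd
    apply hy
    by_cases h0 : v 0 = 0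
    · have h1' : v 1 ≠ 0 := by
        intro h1'
        apply hv0
        ext i
        fin_cases i
        · exact h0
        · exact h1'
      have hy0 : y 0 = 0 := by
        rw [h0, zero_mul, zero_sub, neg_eq_zero] at hd
        exact (mul_eq_zero.mp hd).resolve_left h1'
      have : y = (y 1 / v 1) • v := by
        ext i
        fin_cases i
        · simp [hy0, h0]
        · simp [h1']
      rw [hu, this, Matrix.mulVec_smul, hSv, smul_zero]
    · have : y = (y 0 / v 0) • v := by
        ext i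
        fin_cases i
        · simp [h0]
        · simp only [Fin.mk_one, Fin.isValue, Pi.smul_apply, smul_eq_mul]
          field_simp
          linear_combination hd
      rw [hu, this, Matrix.mulVec_smul, hSv, smul_zero]
  -- S' with S' v ≠ 0, S' y = 0
  obtain ⟨a', ha', ha'v⟩ := htrans v hv0 y
  obtain ⟨a'', ha'', ha''u⟩ := htrans u hy ((S * a') *ᵥ y)
  set S' : Matrix (Fin 2) (Fin 2) K := S * a' - a'' * S with hS'
  have hS'A : S' ∈ A := Submodule.sub_mem _ (hAmul S hSA a' ha') (hAmul a'' ha'' S hSA)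
  have hS'v : S' *ᵥ v = u := by
    rw [hS', Matrix.sub_mulVec, ← Matrix.mulVec_mulVec, ← Matrix.mulVec_mulVec, ha'v, hSv,
      Matrix.mulVec_zero, sub_zero]
  have hS'y : S' *ᵥ y = 0 := by
    rw [hS', Matrix.sub_mulVec, ← Matrix.mulVec_mulVec y a'' S, ← hu, ha''u, sub_self]
  rw [eq_top_iff]
  intro B _
  obtain ⟨a1, ha1, ha1u⟩ := htrans u hy (B *ᵥ y)
  obtain ⟨a2, ha2, ha2u⟩ := htrans u hy (B *ᵥ v)
  have hB : B = a1 * S + a2 * S' := by
    apply matrix_eq_of_mulVec_eq hdet
    · rw [Matrix.add_mulVec, ← Matrix.mulVec_mulVec, ← Matrix.mulVec_mulVec, hSv, hS'v, ha2u,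
        Matrix.mulVec_zero, zero_add]
    · rw [Matrix.add_mulVec, ← Matrix.mulVec_mulVec, ← Matrix.mulVec_mulVec, hS'y, ← hu, ha1u,
        Matrix.mulVec_zero, add_zero]
  rw [hB]
  exact Submodule.add_mem _ (hAmul a1 ha1 S hSA) (hAmul a2 ha2 S' hS'A)

/-- Descent of spanning along a field extension. -/
theorem span_eq_top_of_span_map_eq_top {k : Type*} [Field k] [Algebra k K]
    (𝒮 : Set (Matrix (Fin 2) (Fin 2) k))
    (h : Submodule.span K ((fun M : Matrix (Fin 2) (Fin 2) k => M.map (algebraMap k K)) '' 𝒮) = ⊤) :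
    Submodule.span k 𝒮 = ⊤ := by
  classical
  by_contra hne
  obtain ⟨f, hf0, hf⟩ := Submodule.exists_le_ker_of_lt_top _ (lt_top_iff_ne_top.mpr hne)
  let c : Fin 2 → Fin 2 → k := fun i j => f (Matrix.single i j 1)
  have hfc : ∀ M : Matrix (Fin 2) (Fin 2) k, f M = ∑ i, ∑ j, M i j * c i j := by
    intro M
    conv_lhs => rw [Matrix.matrix_eq_sum_single M]
    simp only [map_sum]
    refine Finset.sum_congr rfl fun i _ => Finset.sum_congr rfl fun j _ => ?_
    have : Matrix.single i j (M i j) = M i j • Matrix.single i j (1 : k) := by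
      rw [Matrix.smul_single, smul_eq_mul, mul_one]
    rw [this, map_smul, smul_eq_mul]
  let F : Matrix (Fin 2) (Fin 2) K →ₗ[K] K :=
    { toFun := fun M => ∑ i, ∑ j, M i j * algebraMap k K (c i j)
      map_add' := fun M M' => by
        simp only [Matrix.add_apply, add_mul, Finset.sum_add_distrib]
      map_smul' := fun a M => by
        simp only [Matrix.smul_apply, smul_eq_mul, RingHom.id_apply, Finset.mul_sum, mul_assoc] }
  have hFmap : ∀ M : Matrix (Fin 2) (Fin 2) k, F (M.map (algebraMap k K)) = algebraMap k K (f M) := by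
    intro M
    rw [hfc]
    simp only [F, LinearMap.coe_mk, AddHom.coe_mk, Matrix.map_apply, map_sum, map_mul]
  have hFker : Submodule.span K
      ((fun M : Matrix (Fin 2) (Fin 2) k => M.map (algebraMap k K)) '' 𝒮) ≤ LinearMap.ker F := by
    rw [Submodule.span_le]
    rintro _ ⟨M, hM, rfl⟩
    rw [SetLike.mem_coe, LinearMap.mem_ker, hFmap]
    have : f M = 0 := hf (Submodule.subset_span hM)
    rw [this, map_zero]
  rw [h, top_le_iff, LinearMap.ker_eq_top] at hFker
  apply hf0
  apply LinearMap.ext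
  intro M
  have : algebraMap k K (f M) = 0 := by rw [← hFmap, hFker]; rfl
  simpa using this

end Burnside

open scoped TensorProduct

/-- P3 -/
theorem span_range_toMatrix_eq_top {k : Type} [Field k] (ρbar : ResidualGaloisRep k)
    (habs : ρbar.IsAbsolutelyIrreducible) (b : Module.Basis (Fin 2) k ρbar.V) :
    Submodule.span k (Set.range fun g => LinearMap.toMatrix b b (ρbar.ρ g)) = ⊤ := by
  classical
  let K := AlgebraicClosure k
  apply span_eq_top_of_span_map_eq_top (K := K)
  let bK : Module.Basis (Fin 2) K (K ⊗[k] ρbar.V) := Algebra.TensorProduct.basis K b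
  have hmat : ∀ g, LinearMap.toMatrix bK bK ((ρbar.ρ g).baseChange K) =
      (LinearMap.toMatrix b b (ρbar.ρ g)).map (algebraMap k K) :=
    fun g => LinearMap.toMatrix_baseChange K (ρbar.ρ g) b b
  apply span_eq_top_of_irreducible
  · refine ⟨_, ⟨1, rfl⟩, ?_⟩
    simp only [map_one]
    ext i j
    simp [Matrix.one_apply, apply_ite]
  · rintro _ ⟨_, ⟨g, rfl⟩, rfl⟩ _ ⟨_, ⟨g', rfl⟩, rfl⟩
    refine ⟨_, ⟨g * g', rfl⟩, ?_⟩
    simp only [map_mul]
    rw [Module.End.mul_eq_comp, LinearMap.toMatrix_comp b b b, Matrix.map_mul]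
  · intro W hW
    let e : (K ⊗[k] ρbar.V) ≃ₗ[K] (Fin 2 → K) := bK.equivFun
    have hstab : ∀ σ, ∀ x ∈ W.comap (e : (K ⊗[k] ρbar.V) →ₗ[K] (Fin 2 → K)),
        (ρbar.baseChange K).ρ σ x ∈ W.comap (e : (K ⊗[k] ρbar.V) →ₗ[K] (Fin 2 → K)) := by
      intro σ x hx
      rw [Submodule.mem_comap] at hx ⊢
      have h1 := hW _ ⟨_, ⟨σ, rfl⟩, rfl⟩ _ hx
      have h2 : e ((ρbar.ρ σ).baseChange K x) =
          (LinearMap.toMatrix b b (ρbar.ρ σ)).map (algebraMap k K) *ᵥ e x := by
        rw [← hmat]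
        exact (LinearMap.toMatrix_mulVec_repr bK bK _ x).symm
      change e ((ρbar.ρ σ).baseChange K x) ∈ W
      rw [h2]
      exact h1
    rcases habs _ hstab with h | h
    · left
      rw [eq_bot_iff]
      intro w hw
      have : e.symm w ∈ W.comap (e : (K ⊗[k] ρbar.V) →ₗ[K] (Fin 2 → K)) := by
        rw [Submodule.mem_comap]
        simpa using hw
      rw [h, Submodule.mem_bot] at this
      have h3 := congrArg e this
      simpa using h3
    · right
      rw [eq_top_iff]
      intro w _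
      have : e.symm w ∈ W.comap (e : (K ⊗[k] ρbar.V) →ₗ[K] (Fin 2 → K)) := h ▸ Submodule.mem_top
      rw [Submodule.mem_comap] at this
      simpa using this

end Fermat.Agent.S53lib
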