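import Fermat.Agent.S53.Generators
import Fermat.Agent.S53.P3
set_option autoImplicit false
set_option linter.unusedSectionVars false

namespace Fermat.Agent.S53lib

open IsLocalRing GaloisRep

variable {𝒪 : Type} [CommRing 𝒪] [IsLocalRing 𝒪]

theorem exists_lift_finsupp (ρt : Gal → M2 𝒪) (M : M2 (ResidueField 𝒪))
    (hM : M ∈ Submodule.span (ResidueField 𝒪)
      (Set.range fun g => (ρt g).map (residue 𝒪))) :
    ∃ a : Gal →₀ 𝒪, (residue 𝒪).mapMatrix (a.sum fun g t => t • ρt g) = M := by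
  classical
  obtain ⟨a', ha'⟩ := (Finsupp.mem_span_range_iff_exists_finsupp).mp hM
  let s : ResidueField 𝒪 → 𝒪 := fun t => if t = 0 then 0 else (residue_surjective t).choose
  have hs0 : s 0 = 0 := if_pos rfl
  have hs : ∀ t, residue 𝒪 (s t) = t := fun t => by
    by_cases ht : t = 0
    · simp [s, ht]
    · simp only [s, if_neg ht]
      exact (residue_surjective t).choose_spec
  refine ⟨a'.mapRange s hs0, ?_⟩
  rw [Finsupp.sum_mapRange_index (fun g => by simp), ← ha']
  simp only [Finsupp.sum, map_sum]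
  refine Finset.sum_congr rfl fun g _ => ?_
  ext i j
  simp [hs]

theorem exists_ndata (ρbar : ResidualGaloisRep (ResidueField 𝒪))
    (habs : ρbar.IsAbsolutelyIrreducible) :
    ∃ Dt : NData 𝒪, HasMatRes ρbar (fun σ => (Dt.ρt σ).map (residue 𝒪)) := by
  let b := Module.finBasisOfFinrankEq (ResidueField 𝒪) ρbar.V ρbar.finrank_eq
  have hspan := span_range_toMatrix_eq_top ρbar habs b
  choose ρt hρt using fun (σ : Gal) (i j : Fin 2) =>
    residue_surjective (LinearMap.toMatrix b b (ρbar.ρ σ) i j)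
  let ρT : Gal → M2 𝒪 := fun σ => Matrix.of (ρt σ)
  have hρT : (fun g => (ρT g).map (residue 𝒪)) = fun g => LinearMap.toMatrix b b (ρbar.ρ g) := by
    funext g
    ext i j
    exact hρt g i j
  have hall : ∀ M : M2 (ResidueField 𝒪), M ∈ Submodule.span (ResidueField 𝒪)
      (Set.range fun g => (ρT g).map (residue 𝒪)) := fun M => by
    rw [hρT, hspan]; exact Submodule.mem_top
  obtain ⟨a, ha⟩ := exists_lift_finsupp ρT _ (hall !![1, 0; 0, 0])
  obtain ⟨c, hc⟩ := exists_lift_finsupp ρT _ (hall !![0, 0; 1, 0])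
  exact ⟨⟨ρT, a, c, ha, hc⟩, b, fun σ => (congrFun hρT σ).symm⟩

end Fermat.Agent.S53lib
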