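import Fermat.Agent.S53.Adm
set_option autoImplicit false
set_option linter.unusedSectionVars false

namespace Fermat.Agent.S53lib

open IsLocalRing GaloisRep

variable {𝒪 : Type} [CommRing 𝒪] [IsLocalRing 𝒪]

@[reducible] noncomputable def algDual (𝒪 : Type) [CommRing 𝒪] [IsLocalRing 𝒪] :
    Algebra 𝒪 (DualNumber (ResidueField 𝒪)) :=
  ((algebraMap (ResidueField 𝒪) (DualNumber (ResidueField 𝒪))).comp
      (algebraMap 𝒪 (ResidueField 𝒪))).toAlgebra

attribute [local instance] algDual

theorem algebraMap_dual (c : 𝒪) :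
    algebraMap 𝒪 (DualNumber (ResidueField 𝒪)) c = TrivSqZeroExt.inl (residue 𝒪 c) := rfl

theorem dual_isUnit_iff (z : DualNumber (ResidueField 𝒪)) : IsUnit z ↔ z.fst ≠ 0 := by
  rw [TrivSqZeroExt.isUnit_iff_isUnit_fst, isUnit_iff_ne_zero]

theorem dual_mem_maximalIdeal_iff (z : DualNumber (ResidueField 𝒪)) :
    z ∈ maximalIdeal (DualNumber (ResidueField 𝒪)) ↔ z.fst = 0 := by
  rw [mem_maximalIdeal, mem_nonunits_iff, dual_isUnit_iff, not_not]

theorem dual_testAlgebra [Finite (ResidueField 𝒪)] :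
    IsArtinianTestAlgebra 𝒪 (DualNumber (ResidueField 𝒪)) where
  isLocalHom := ⟨fun c hc => by
    rw [dual_isUnit_iff, algebraMap_dual, TrivSqZeroExt.fst_inl] at hc
    by_contra hu
    exact hc ((residue_eq_zero_iff _).mpr hu)⟩
  residue_surjective := fun y => by
    obtain ⟨z, rfl⟩ := residue_surjective y
    obtain ⟨c, hc⟩ := residue_surjective z.fst
    refine ⟨c, ?_⟩
    show residue _ (algebraMap 𝒪 (DualNumber (ResidueField 𝒪)) c) = residue _ z
    rw [← sub_eq_zero, ← map_sub, residue_eq_zero_iff, dual_mem_maximalIdeal_iff,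
      TrivSqZeroExt.fst_sub, algebraMap_dual, TrivSqZeroExt.fst_inl, hc, sub_self]
  isArtinian := by
    have : Finite (DualNumber (ResidueField 𝒪)) :=
      inferInstanceAs (Finite (ResidueField 𝒪 × ResidueField 𝒪))
    infer_instance

theorem exists_hom_dual {A : Type} [CommRing A] [IsLocalRing A] [Algebra 𝒪 A]
    (ev : A →ₐ[𝒪] ResidueField 𝒪) (hev : ∀ a, ev a = 0 ↔ a ∈ maximalIdeal A)
    (hsq : ∀ a b, a ∈ maximalIdeal A → b ∈ maximalIdeal A → a * b = 0)
    (hϖ : ∀ c ∈ maximalIdeal 𝒪, algebraMap 𝒪 A c = 0)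
    (x : A) (hx : x ∈ maximalIdeal A) (hx0 : x ≠ 0) :
    ∃ φ : A →ₐ[𝒪] DualNumber (ResidueField 𝒪),
      IsLocalHom (φ : A →+* DualNumber (ResidueField 𝒪)) ∧ φ x ≠ 0 := by
  let s : ResidueField 𝒪 →+* A := Ideal.Quotient.lift (maximalIdeal 𝒪) (algebraMap 𝒪 A) hϖ
  have hs : ∀ c : 𝒪, s (residue 𝒪 c) = algebraMap 𝒪 A c := fun c => rfl
  have hevs : ∀ t, ev (s t) = t := fun t => by
    obtain ⟨c, rfl⟩ := residue_surjective t
    rw [hs, AlgHom.commutes]
    rfl
  let _ : Algebra (ResidueField 𝒪) A := s.toAlgebra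
  have hsmul : ∀ (t : ResidueField 𝒪) (a : A), t • a = s t * a := fun t a => rfl
  obtain ⟨ℓ, hℓ⟩ : ∃ ℓ : Module.Dual (ResidueField 𝒪) A, ℓ x ≠ 0 := by
    by_contra hcon
    push Not at hcon
    exact hx0 ((Module.forall_dual_apply_eq_zero_iff (ResidueField 𝒪) x).mp hcon)
  have hm : ∀ a, a - s (ev a) ∈ maximalIdeal A := fun a => by
    rw [← hev, map_sub, hevs, sub_self]
  let L : A → ResidueField 𝒪 := fun a => ℓ (a - s (ev a))
  have hLmul : ∀ a b, L (a * b) = ev a * L b + ev b * L a := fun a b => by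
    have h0 := hsq _ _ (hm a) (hm b)
    have h1 : a * b - s (ev (a * b)) = ev a • (b - s (ev b)) + ev b • (a - s (ev a)) := by
      rw [hsmul, hsmul, map_mul, map_mul]
      linear_combination h0
    show ℓ _ = _
    rw [h1, map_add, map_smul, map_smul, smul_eq_mul, smul_eq_mul]
  let φ : A →ₐ[𝒪] DualNumber (ResidueField 𝒪) :=
    { toFun := fun a => TrivSqZeroExt.inl (ev a) + TrivSqZeroExt.inr (L a)
      map_one' := by
        have : L 1 = 0 := by
          show ℓ _ = 0
          rw [map_one, map_one, sub_self, map_zero]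
        rw [this, map_one]
        simp
      map_mul' := fun a b => by
        apply TrivSqZeroExt.ext
        · simp
        · simp [hLmul, mul_comm]
      map_zero' := by
        have : L 0 = 0 := by
          show ℓ _ = 0
          rw [map_zero, map_zero, sub_self, map_zero]
        rw [this, map_zero]
        simp
      map_add' := fun a b => by
        have : L (a + b) = L a + L b := by
          show ℓ _ = ℓ _ + ℓ _
          rw [← map_add]
          congr 1
          rw [map_add, map_add]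
          ring
        rw [this, map_add]
        apply TrivSqZeroExt.ext <;> simp
      commutes' := fun c => by
        have : L (algebraMap 𝒪 A c) = 0 := by
          show ℓ _ = 0
          rw [AlgHom.commutes]
          have : s (algebraMap 𝒪 (ResidueField 𝒪) c) = algebraMap 𝒪 A c := hs c
          rw [this, sub_self, map_zero]
        rw [this, AlgHom.commutes, algebraMap_dual]
        simp }
  refine ⟨φ, ⟨fun a ha => ?_⟩, ?_⟩
  · have h1 : IsUnit (TrivSqZeroExt.inl (ev a) + TrivSqZeroExt.inr (L a) :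
        DualNumber (ResidueField 𝒪)) := ha
    rw [dual_isUnit_iff] at h1
    simp only [TrivSqZeroExt.fst_add, TrivSqZeroExt.fst_inl, TrivSqZeroExt.fst_inr,
      add_zero] at h1
    by_contra hu
    exact h1 ((hev a).mpr hu)
  · intro h0
    have h1 : (TrivSqZeroExt.inl (ev x) + TrivSqZeroExt.inr (L x) :
        DualNumber (ResidueField 𝒪)) = 0 := h0
    have h2 := congrArg TrivSqZeroExt.snd h1
    simp only [TrivSqZeroExt.snd_add, TrivSqZeroExt.snd_inl, TrivSqZeroExt.snd_inr,
      zero_add, TrivSqZeroExt.snd_zero] at h2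
    apply hℓ
    have h3 : L x = ℓ x := by
      show ℓ _ = _
      rw [(hev x).mpr hx, map_zero, sub_zero]
    rw [← h3, h2]

end Fermat.Agent.S53lib
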