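import Fermat.Agent.S53.Univ
set_option autoImplicit false
set_option linter.unusedSectionVars false

namespace Fermat.Agent.S53lib

open IsLocalRing GaloisRep

theorem exists_extension {U R A : Type} [CommRing U] [CommRing R] [IsLocalRing R] [CommRing A]
    [IsLocalRing A] [IsNoetherianRing A] [IsAdicComplete (maximalIdeal A) A]
    (u : U →+* R) (h : U →+* A)
    (hR2 : ∀ (n : ℕ) (y : R), ∃ z, y - u z ∈ maximalIdeal R ^ n)
    (hcof : ∀ n : ℕ, ∃ N : ℕ, (maximalIdeal R ^ N).comap u ≤ (maximalIdeal A ^ n).comap h) :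
    ∃ φ : R →+* A, (∀ z, φ (u z) = h z) ∧
      ∀ n : ℕ, ∃ N : ℕ, ∀ y ∈ maximalIdeal R ^ N, φ y ∈ maximalIdeal A ^ n := by
  choose N hN using hcof
  let p : ∀ n, U →+* R ⧸ maximalIdeal R ^ (N n) :=
    fun n => (Ideal.Quotient.mk (maximalIdeal R ^ (N n))).comp u
  have hp : ∀ n, Function.Surjective (p n) := fun n y => by
    obtain ⟨y, rfl⟩ := Ideal.Quotient.mk_surjective y
    obtain ⟨z, hz⟩ := hR2 (N n) y
    exact ⟨z, ((Ideal.Quotient.eq).mpr hz).symm⟩
  let g : ∀ n, U →+* A ⧸ maximalIdeal A ^ n :=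
    fun n => (Ideal.Quotient.mk (maximalIdeal A ^ n)).comp h
  have hker : ∀ n, RingHom.ker (p n) ≤ RingHom.ker (g n) := fun n w hw => by
    have h1 : u w ∈ maximalIdeal R ^ (N n) := Ideal.Quotient.eq_zero_iff_mem.mp hw
    exact Ideal.Quotient.eq_zero_iff_mem.mpr (hN n h1)
  let F : ∀ n, R →+* A ⧸ maximalIdeal A ^ n := fun n =>
    ((p n).liftOfSurjective (hp n) ⟨g n, hker n⟩).comp
      (Ideal.Quotient.mk (maximalIdeal R ^ (N n)))
  have hFu : ∀ n z, F n (u z) = Ideal.Quotient.mk _ (h z) := fun n z =>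
    RingHom.liftOfSurjective_comp_apply (p n) (hp n) ⟨g n, hker n⟩ z
  have hF0 : ∀ n, ∀ y ∈ maximalIdeal R ^ (N n), F n y = 0 := fun n y hy => by
    show ((p n).liftOfSurjective (hp n) ⟨g n, hker n⟩) (Ideal.Quotient.mk _ y) = 0
    rw [Ideal.Quotient.eq_zero_iff_mem.mpr hy, map_zero]
  have hcompat : ∀ {m n : ℕ} (hle : m ≤ n),
      (Ideal.Quotient.factorPow (maximalIdeal A) hle).comp (F n) = F m := by
    intro m n hle
    ext y
    obtain ⟨z, hz⟩ := hR2 (max (N n) (N m)) y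
    have h1 : F n (y - u z) = 0 := hF0 n _ (Ideal.pow_le_pow_right (le_max_left _ _) hz)
    have h2 : F m (y - u z) = 0 := hF0 m _ (Ideal.pow_le_pow_right (le_max_right _ _) hz)
    rw [map_sub, sub_eq_zero] at h1 h2
    rw [RingHom.comp_apply, h1, h2, hFu, hFu]
    rfl
  refine ⟨IsAdicComplete.liftRingHom (maximalIdeal A) F hcompat, fun z => ?_, fun n => ⟨N n, ?_⟩⟩
  · rw [← sub_eq_zero]
    apply eq_zero_of_forall_mem_pow
    intro n
    rw [← Ideal.Quotient.eq, IsAdicComplete.mk_liftRingHom, hFu]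
  · intro y hy
    rw [← Ideal.Quotient.eq_zero_iff_mem, IsAdicComplete.mk_liftRingHom, hF0 n y hy]

theorem quotient_pow_testAlgebra {𝒪 : Type} [CommRing 𝒪] [IsLocalRing 𝒪]
    (A : Type) [CommRing A] [IsLocalRing A] [IsNoetherianRing A] [Algebra 𝒪 A]
    [IsLocalHom (algebraMap 𝒪 A)]
    (hresA : Function.Surjective (residue A ∘ algebraMap 𝒪 A)) (n : ℕ) :
    ∃ _ : IsLocalRing (A ⧸ maximalIdeal A ^ (n + 1)),
      IsArtinianTestAlgebra 𝒪 (A ⧸ maximalIdeal A ^ (n + 1)) ∧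
      IsLocalHom (Ideal.Quotient.mk (maximalIdeal A ^ (n + 1))) := by
  have hle : maximalIdeal A ^ (n + 1) ≤ maximalIdeal A := Ideal.pow_le_self (Nat.succ_ne_zero n)
  have hnt : Nontrivial (A ⧸ maximalIdeal A ^ (n + 1)) := Ideal.Quotient.nontrivial_iff.mpr
    (fun h => (Ideal.IsPrime.ne_top (inferInstance : (maximalIdeal A).IsPrime))
      (top_le_iff.mp (h ▸ hle)))
  have hloc : IsLocalRing (A ⧸ maximalIdeal A ^ (n + 1)) :=
    IsLocalRing.of_surjective' (Ideal.Quotient.mk _) Ideal.Quotient.mk_surjective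
  have hmk : IsLocalHom (Ideal.Quotient.mk (maximalIdeal A ^ (n + 1))) :=
    isLocalHom_of_le_jacobson_bot _ (hle.trans (IsLocalRing.maximalIdeal_le_jacobson ⊥))
  have hmem : ∀ a : A, Ideal.Quotient.mk (maximalIdeal A ^ (n + 1)) a ∈
      maximalIdeal (A ⧸ maximalIdeal A ^ (n + 1)) ↔ a ∈ maximalIdeal A := fun a => by
    rw [mem_maximalIdeal, mem_maximalIdeal, mem_nonunits_iff, mem_nonunits_iff, not_iff_not]
    exact ⟨fun h => hmk.map_nonunit a h, fun h => h.map _⟩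
  refine ⟨hloc, ⟨?_, ?_, ?_⟩, hmk⟩
  · exact RingHom.isLocalHom_comp (Ideal.Quotient.mk (maximalIdeal A ^ (n + 1))) (algebraMap 𝒪 A)
  · intro y
    obtain ⟨x, rfl⟩ := residue_surjective y
    obtain ⟨a, rfl⟩ := Ideal.Quotient.mk_surjective x
    obtain ⟨c, hc⟩ := hresA (residue A a)
    refine ⟨c, ?_⟩
    have h1 : residue A (algebraMap 𝒪 A c - a) = 0 := by rw [map_sub, sub_eq_zero]; exact hc
    rw [residue_eq_zero_iff, ← hmem, ← residue_eq_zero_iff, map_sub, map_sub, sub_eq_zero] at h1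
    exact h1
  · rw [isArtinianRing_iff_isNilpotent_maximalIdeal]
    refine ⟨n + 1, ?_⟩
    have h1 : maximalIdeal (A ⧸ maximalIdeal A ^ (n + 1)) ≤
        (maximalIdeal A).map (Ideal.Quotient.mk (maximalIdeal A ^ (n + 1))) := by
      intro y hy
      obtain ⟨a, rfl⟩ := Ideal.Quotient.mk_surjective y
      exact Ideal.mem_map_of_mem _ ((hmem a).mp hy)
    have h2 := Ideal.pow_right_mono h1 (n + 1)
    rw [← Ideal.map_pow, Ideal.map_quotient_self] at h2
    exact le_bot_iff.mp h2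

end Fermat.Agent.S53lib
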