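import Fermat.Agent.S53.Tangent
set_option autoImplicit false
set_option linter.unusedSectionVars false

namespace Fermat.Agent.S53lib

open IsLocalRing GaloisRep

variable {𝒪 : Type} [CommRing 𝒪] [IsLocalRing 𝒪]
variable [Finite (ResidueField 𝒪)] {Dt : NData 𝒪}
  {𝒟 : ∀ ⦃A : Type⦄ [CommRing A] [IsLocalRing A] [Algebra 𝒪 A], GaloisRepAdic A → Prop}

theorem exists_generators {I₀ : Ideal (UU 𝒪)} (hI₀ : Adm Dt 𝒟 I₀)
    (h : ∀ I, Adm Dt 𝒟 I → I₀ ≤ I ⊔ mU Dt ^ 2 ⊔ Ideal.map MvPolynomial.C (maximalIdeal 𝒪)) :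
    ∃ (d : ℕ) (x : Fin d → UU 𝒪), (∀ i, x i ∈ mU Dt) ∧
      ∀ I, Adm Dt 𝒟 I → ∀ y, ∃ f : MvPolynomial (Fin d) 𝒪, y - MvPolynomial.aeval x f ∈ I := by
  have := hI₀.finite
  let T := {a : UU 𝒪 ⧸ I₀ // ∃ u ∈ mU Dt, Ideal.Quotient.mk I₀ u = a}
  let e : T ≃ Fin (Nat.card T) := Finite.equivFin T
  let x : Fin (Nat.card T) → UU 𝒪 := fun i => (e.symm i).2.choose
  have hx1 : ∀ i, x i ∈ mU Dt := fun i => (e.symm i).2.choose_spec.1
  have hx2 : ∀ i, Ideal.Quotient.mk I₀ (x i) = (e.symm i).1 := fun i => (e.symm i).2.choose_spec.2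
  have hx3 : ∀ y ∈ mU Dt, ∃ i, y - x i ∈ I₀ := fun y hy => by
    refine ⟨e ⟨Ideal.Quotient.mk I₀ y, y, hy, rfl⟩, ?_⟩
    rw [← Ideal.Quotient.eq, hx2, Equiv.symm_apply_apply]
  refine ⟨_, x, hx1, fun I hI => ?_⟩
  set X : Ideal (UU 𝒪) :=
    Ideal.span (Set.range x ∪ MvPolynomial.C '' (maximalIdeal 𝒪 : Set 𝒪)) with hX
  have hXle : X ≤ mU Dt := by
    rw [hX, Ideal.span_le]
    rintro _ (⟨i, rfl⟩ | ⟨c, hc, rfl⟩)
    · exact hx1 i
    · exact (C_mem_mU_iff c).mpr hc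
  have hCle : Ideal.map MvPolynomial.C (maximalIdeal 𝒪) ≤ X :=
    Ideal.span_mono Set.subset_union_right
  -- step 3
  have base : mU Dt ≤ (X ⊔ I) ⊔ mU Dt ^ 2 := by
    intro y hy
    obtain ⟨i, hi⟩ := hx3 y hy
    have h1 := h I hI hi
    have h2 : x i ∈ (X ⊔ I) ⊔ mU Dt ^ 2 :=
      (le_sup_left.trans le_sup_left : X ≤ _) (Ideal.subset_span (Or.inl ⟨i, rfl⟩))
    have h3 : I ⊔ mU Dt ^ 2 ⊔ Ideal.map MvPolynomial.C (maximalIdeal 𝒪) ≤ (X ⊔ I) ⊔ mU Dt ^ 2 :=
      sup_le (sup_le (le_sup_right.trans le_sup_left) le_sup_right)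
        (hCle.trans (le_sup_left.trans le_sup_left))
    have := Ideal.add_mem _ (h3 h1) h2
    simpa using this
  have step3 : ∀ n : ℕ, mU Dt ≤ (X ⊔ I) ⊔ mU Dt ^ (n + 2) := by
    intro n
    induction n with
    | zero => exact base
    | succ n ih =>
      refine ih.trans (sup_le le_sup_left ?_)
      calc mU Dt ^ (n + 2) = mU Dt * mU Dt ^ (n + 1) := by rw [← pow_succ']
        _ ≤ ((X ⊔ I) ⊔ mU Dt ^ 2) * mU Dt ^ (n + 1) := Ideal.mul_mono_left base
        _ = (X ⊔ I) * mU Dt ^ (n + 1) ⊔ mU Dt ^ 2 * mU Dt ^ (n + 1) := Ideal.sup_mul _ _ _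
        _ ≤ (X ⊔ I) ⊔ mU Dt ^ (n + 1 + 2) := by
          refine sup_le_sup Ideal.mul_le_left ?_
          rw [← pow_add]
          exact le_of_eq (by congr 1; ring)
  obtain ⟨N, hN⟩ := hI.good.2
  have hmU : mU Dt ≤ X ⊔ I := by
    refine (step3 N).trans (sup_le le_rfl ?_)
    exact ((Ideal.pow_le_pow_right (Nat.le_add_right N 2)).trans hN).trans le_sup_right
  -- step 4
  have claim : ∀ n : ℕ, ∀ y, ∃ f : MvPolynomial (Fin (Nat.card T)) 𝒪,
      y - MvPolynomial.aeval x f ∈ I ⊔ mU Dt ^ n := by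
    intro n
    induction n with
    | zero => intro y; exact ⟨0, by simp⟩
    | succ n ih =>
      have sub : ∀ z ∈ X, ∃ f : MvPolynomial (Fin (Nat.card T)) 𝒪,
          z - MvPolynomial.aeval x f ∈ I ⊔ mU Dt ^ (n + 1) ∧ MvPolynomial.aeval x f ∈ mU Dt := by
        intro z hz
        induction hz using Submodule.span_induction with
        | mem z hz =>
          rcases hz with ⟨i, rfl⟩ | ⟨c, hc, rfl⟩
          · exact ⟨MvPolynomial.X i, by simp, by simpa using hx1 i⟩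
          · refine ⟨MvPolynomial.C c, by simp, ?_⟩
            rw [MvPolynomial.aeval_C]
            exact (C_mem_mU_iff c).mpr hc
        | zero => exact ⟨0, by simp, by simp⟩
        | add a b _ _ iha ihb =>
          obtain ⟨fa, ha1, ha2⟩ := iha
          obtain ⟨fb, hb1, hb2⟩ := ihb
          refine ⟨fa + fb, ?_, ?_⟩
          · rw [map_add]
            have := Ideal.add_mem _ ha1 hb1
            convert this using 1
            ring
          · rw [map_add]; exact Ideal.add_mem _ ha2 hb2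
        | smul w z _ ihz =>
          obtain ⟨fz, hz1, hz2⟩ := ihz
          obtain ⟨fw, hw⟩ := ih w
          refine ⟨fw * fz, ?_, ?_⟩
          · rw [map_mul, smul_eq_mul]
            have e1 : w * z - MvPolynomial.aeval x fw * MvPolynomial.aeval x fz =
                w * (z - MvPolynomial.aeval x fz) +
                  (w - MvPolynomial.aeval x fw) * MvPolynomial.aeval x fz := by ring
            rw [e1]
            refine Ideal.add_mem _ (Ideal.mul_mem_left _ _ hz1) ?_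
            have e2 : (I ⊔ mU Dt ^ n) * mU Dt ≤ I ⊔ mU Dt ^ (n + 1) := by
              rw [Ideal.sup_mul]
              exact sup_le_sup Ideal.mul_le_left (le_of_eq (pow_succ _ _).symm)
            exact e2 (Ideal.mul_mem_mul hw hz2)
          · rw [map_mul]; exact Ideal.mul_mem_left _ _ hz2
      intro y
      obtain ⟨c, hc⟩ := exists_C_sub_mem Dt y
      obtain ⟨z, hz, i, hi, hzi⟩ := Submodule.mem_sup.mp (hmU hc)
      obtain ⟨f, hf, -⟩ := sub z hz
      refine ⟨MvPolynomial.C c + f, ?_⟩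
      rw [map_add, MvPolynomial.aeval_C]
      have e3 : y - ((algebraMap 𝒪 (UU 𝒪)) c + MvPolynomial.aeval x f) =
          (z - MvPolynomial.aeval x f) + i := by
        have : (algebraMap 𝒪 (UU 𝒪)) c = MvPolynomial.C c := rfl
        rw [this]
        linear_combination -hzi
      rw [e3]
      exact Ideal.add_mem _ hf (le_sup_left (a := I) hi)
  intro y
  obtain ⟨f, hf⟩ := claim N y
  exact ⟨f, (sup_le le_rfl hN) hf⟩

end Fermat.Agent.S53lib
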