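import Fermat.Statements.S53
set_option autoImplicit false
set_option linter.unusedSectionVars false
set_option linter.deprecated false

namespace Fermat.Agent.S53lib

open IsLocalRing

abbrev Gal := AlgebraicClosure ℚ ≃ₐ[ℚ] AlgebraicClosure ℚ
abbrev M2 (A : Type) := Matrix (Fin 2) (Fin 2) A

section basic
variable {A : Type} [CommRing A] [IsLocalRing A]

/-- `ρ` has matrices `r` in some basis. -/
def HasMat (ρ : GaloisRepAdic A) (r : Gal → M2 A) : Prop :=
  ∃ b : Module.Basis (Fin 2) A ρ.V, ∀ σ, LinearMap.toMatrix b b (ρ.ρ σ) = r σ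

theorem exists_hasMat (ρ : GaloisRepAdic A) : ∃ r, HasMat ρ r :=
  ⟨_, Module.finBasisOfFinrankEq A ρ.V ρ.finrank_eq, fun _ => rfl⟩

theorem HasMat.map_one {ρ : GaloisRepAdic A} {r : Gal → M2 A} (h : HasMat ρ r) : r 1 = 1 := by
  obtain ⟨b, hb⟩ := h
  rw [← hb, _root_.map_one ρ.ρ]
  exact LinearMap.toMatrix_one b

theorem HasMat.map_mul {ρ : GaloisRepAdic A} {r : Gal → M2 A} (h : HasMat ρ r) (g g' : Gal) :
    r (g * g') = r g * r g' := by
  obtain ⟨b, hb⟩ := h
  rw [← hb, ← hb, ← hb, _root_.map_mul]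
  exact LinearMap.toMatrix_mul b _ _

theorem HasMat.isEquiv {ρ ρ' : GaloisRepAdic A} {r : Gal → M2 A} (h : HasMat ρ r)
    (h' : HasMat ρ' r) : ρ.IsEquiv ρ' := by
  obtain ⟨b, hb⟩ := h
  obtain ⟨b', hb'⟩ := h'
  refine ⟨⟨b.equiv b' (Equiv.refl _), fun σ x => ?_⟩⟩
  have key : ((b.equiv b' (Equiv.refl _)) : ρ.V →ₗ[A] ρ'.V) ∘ₗ (ρ.ρ σ) =
      (ρ'.ρ σ) ∘ₗ ((b.equiv b' (Equiv.refl _)) : ρ.V →ₗ[A] ρ'.V) := by
    apply (LinearMap.toMatrix b b').injective
    rw [LinearMap.toMatrix_comp b b b', LinearMap.toMatrix_comp b b' b', hb, hb',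
      LinearMap.toMatrix_basis_equiv, Matrix.one_mul, Matrix.mul_one]
  exact LinearMap.congr_fun key x

theorem HasMat.of_isEquiv {ρ ρ' : GaloisRepAdic A} {r : Gal → M2 A} (h : HasMat ρ r)
    (e : ρ.IsEquiv ρ') : HasMat ρ' r := by
  obtain ⟨b, hb⟩ := h
  obtain ⟨e⟩ := e
  refine ⟨b.map e.toLinearEquiv, fun σ => ?_⟩
  rw [← hb]
  ext i j
  rw [LinearMap.toMatrix_apply, LinearMap.toMatrix_apply, Module.Basis.map_apply, ← e.map_apply,
    Module.Basis.map_repr, LinearEquiv.trans_apply, LinearEquiv.symm_apply_apply]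

theorem HasMat.baseChangeAlong {B : Type} [CommRing B] [IsLocalRing B] {ρ : GaloisRepAdic A}
    {r : Gal → M2 A} (h : HasMat ρ r) (φ : A →+* B) (hφ : IsLocalHom φ) :
    HasMat (ρ.baseChangeAlong φ hφ) (fun σ => (r σ).map φ) := by
  obtain ⟨b, hb⟩ := h
  let _ : Algebra A B := φ.toAlgebra
  refine ⟨Algebra.TensorProduct.basis B b, fun σ => ?_⟩
  show LinearMap.toMatrix (Algebra.TensorProduct.basis B b) (Algebra.TensorProduct.basis B b)
    ((ρ.ρ σ).baseChange B) = (r σ).map φ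
  rw [← hb]
  exact LinearMap.toMatrix_baseChange B (ρ.ρ σ) b b

theorem toMatrix_map_equiv {V : Type} [AddCommGroup V] [Module A V] (b : Module.Basis (Fin 2) A V)
    (E : V ≃ₗ[A] V) (f : V →ₗ[A] V) :
    LinearMap.toMatrix (b.map E) (b.map E) f =
      LinearMap.toMatrix b b ((E.symm : V →ₗ[A] V) ∘ₗ f ∘ₗ (E : V →ₗ[A] V)) := by
  ext i j
  rw [LinearMap.toMatrix_apply, LinearMap.toMatrix_apply, Module.Basis.map_apply,
    Module.Basis.map_repr, LinearEquiv.trans_apply]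
  rfl

theorem HasMat.conj {ρ : GaloisRepAdic A} {r : Gal → M2 A} (h : HasMat ρ r) (P Q : M2 A)
    (hPQ : P * Q = 1) : HasMat ρ (fun σ => Q * r σ * P) := by
  obtain ⟨b, hb⟩ := h
  have hQP : Q * P = 1 := mul_eq_one_comm.mp hPQ
  let E : ρ.V ≃ₗ[A] ρ.V := LinearEquiv.ofLinear (Matrix.toLin b b P) (Matrix.toLin b b Q)
    (by rw [← Matrix.toLin_mul b b b, hPQ, Matrix.toLin_one])
    (by rw [← Matrix.toLin_mul b b b, hQP, Matrix.toLin_one])
  refine ⟨b.map E, fun σ => ?_⟩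
  rw [toMatrix_map_equiv, LinearMap.toMatrix_comp b b b, LinearMap.toMatrix_comp b b b, hb]
  have h1 : LinearMap.toMatrix b b (E : ρ.V →ₗ[A] ρ.V) = P := LinearMap.toMatrix_toLin b b P
  have h2 : LinearMap.toMatrix b b (E.symm : ρ.V →ₗ[A] ρ.V) = Q := LinearMap.toMatrix_toLin b b Q
  rw [h1, h2]
  exact (Matrix.mul_assoc _ _ _).symm

theorem HasMat.exists_conj {ρ : GaloisRepAdic A} {r r' : Gal → M2 A} (h : HasMat ρ r)
    (h' : HasMat ρ r') : ∃ P Q : M2 A, P * Q = 1 ∧ Q * P = 1 ∧ ∀ σ, r' σ * P = P * r σ := by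
  obtain ⟨b, hb⟩ := h
  obtain ⟨b', hb'⟩ := h'
  refine ⟨b'.toMatrix b, b.toMatrix b', Module.Basis.toMatrix_mul_toMatrix_flip b' b,
    Module.Basis.toMatrix_mul_toMatrix_flip b b', fun σ => ?_⟩
  rw [← hb, ← hb', linearMap_toMatrix_mul_basis_toMatrix, basis_toMatrix_mul_linearMap_toMatrix]

/-- adic continuity of a matrix valued map -/
def MatCont (r : Gal → M2 A) : Prop :=
  ∀ n : ℕ, ∃ L : IntermediateField ℚ (AlgebraicClosure ℚ), FiniteDimensional ℚ L ∧
    ∀ σ : Gal, (∀ x ∈ L, σ x = x) → ∀ i j, (r σ - 1) i j ∈ maximalIdeal A ^ n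

theorem repr_mem_of_mem_smul_top {V : Type} [AddCommGroup V] [Module A V]
    (b : Module.Basis (Fin 2) A V) (I : Ideal A) {x : V} (hx : x ∈ I • (⊤ : Submodule A V))
    (i : Fin 2) : b.repr x i ∈ I := by
  refine Submodule.smul_induction_on (p := fun x => b.repr x i ∈ I) hx ?_ ?_
  · intro a ha w _
    rw [map_smul, Finsupp.smul_apply, smul_eq_mul]
    exact I.mul_mem_right _ ha
  · intro x y hx hy
    rw [map_add, Finsupp.add_apply]
    exact I.add_mem hx hy

theorem HasMat.cont {ρ : GaloisRepAdic A} {r : Gal → M2 A} (h : HasMat ρ r) : MatCont r := by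
  obtain ⟨b, hb⟩ := h
  intro n
  obtain ⟨L, hL, h1⟩ := ρ.isAdicContinuous n
  refine ⟨L, hL, fun σ hσ i j => ?_⟩
  have := repr_mem_of_mem_smul_top b _ (h1 σ hσ (b j)) i
  rw [map_sub, Finsupp.sub_apply, Module.Basis.repr_self] at this
  rw [Matrix.sub_apply, ← hb, LinearMap.toMatrix_apply, Matrix.one_apply]
  convert this using 2
  rw [Finsupp.single_apply]
  simp only [eq_comm]

theorem mem_smul_top_of_forall (I : Ideal A) (w : Fin 2 → A) (hw : ∀ i, w i ∈ I) :
    w ∈ I • (⊤ : Submodule A (Fin 2 → A)) := by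
  have : w = ∑ i, w i • (Pi.single i (1 : A) : Fin 2 → A) := by
    ext j
    simp [Finset.sum_apply, Pi.single_apply]
  rw [this]
  exact Submodule.sum_mem _ fun i _ => Submodule.smul_mem_smul (hw i) Submodule.mem_top

theorem exists_of_mat (r : Gal → M2 A) (h1 : r 1 = 1) (hmul : ∀ g g', r (g * g') = r g * r g')
    (hc : MatCont r) : ∃ ρ : GaloisRepAdic A, HasMat ρ r := by
  refine ⟨{ V := Fin 2 → A
            finrank_eq := Module.finrank_fin_fun A
            ρ := { toFun := fun σ => Matrix.toLin' (r σ)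
                   map_one' := by rw [h1, Matrix.toLin'_one]; rfl
                   map_mul' := fun g g' => by rw [hmul, Matrix.toLin'_mul]; rfl }
            isAdicContinuous := ?_ }, Pi.basisFun A (Fin 2), fun σ => ?_⟩
  · intro n
    obtain ⟨L, hL, h2⟩ := hc n
    refine ⟨L, hL, fun σ hσ v => ?_⟩
    apply mem_smul_top_of_forall
    intro i
    show (Matrix.toLin' (r σ) v - v) i ∈ _
    have : Matrix.toLin' (r σ) v - v = Matrix.toLin' (r σ - 1) v := by
      rw [map_sub, Matrix.toLin'_one, LinearMap.sub_apply, LinearMap.id_apply]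
    rw [this, Matrix.toLin'_apply, Matrix.mulVec, dotProduct]
    exact Ideal.sum_mem _ fun j _ => Ideal.mul_mem_right _ _ (h2 σ hσ i j)
  · show LinearMap.toMatrix (Pi.basisFun A (Fin 2)) (Pi.basisFun A (Fin 2)) (Matrix.toLin' (r σ)) = _
    rw [LinearMap.toMatrix_eq_toMatrix', LinearMap.toMatrix'_toLin']

end basic

section residual

variable {K : Type} [Field K]

def HasMatRes (ρ : ResidualGaloisRep K) (r : Gal → M2 K) : Prop :=
  ∃ b : Module.Basis (Fin 2) K ρ.V, ∀ σ, LinearMap.toMatrix b b (ρ.ρ σ) = r σ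

theorem HasMatRes.isEquiv {ρ ρ' : ResidualGaloisRep K} {r : Gal → M2 K} (h : HasMatRes ρ r)
    (h' : HasMatRes ρ' r) : ρ.IsEquiv ρ' := by
  obtain ⟨b, hb⟩ := h
  obtain ⟨b', hb'⟩ := h'
  refine ⟨⟨b.equiv b' (Equiv.refl _), fun σ x => ?_⟩⟩
  have key : ((b.equiv b' (Equiv.refl _)) : ρ.V →ₗ[K] ρ'.V) ∘ₗ (ρ.ρ σ) =
      (ρ'.ρ σ) ∘ₗ ((b.equiv b' (Equiv.refl _)) : ρ.V →ₗ[K] ρ'.V) := by
    apply (LinearMap.toMatrix b b').injective
    rw [LinearMap.toMatrix_comp b b b', LinearMap.toMatrix_comp b b' b', hb, hb',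
      LinearMap.toMatrix_basis_equiv, Matrix.one_mul, Matrix.mul_one]
  exact LinearMap.congr_fun key x

theorem HasMatRes.of_isEquiv {ρ ρ' : ResidualGaloisRep K} {r : Gal → M2 K} (h : HasMatRes ρ r)
    (e : ρ.IsEquiv ρ') : HasMatRes ρ' r := by
  obtain ⟨b, hb⟩ := h
  obtain ⟨e⟩ := e
  refine ⟨b.map e.toLinearEquiv, fun σ => ?_⟩
  rw [← hb]
  ext i j
  rw [LinearMap.toMatrix_apply, LinearMap.toMatrix_apply, Module.Basis.map_apply, ← e.map_apply,
    Module.Basis.map_repr, LinearEquiv.trans_apply, LinearEquiv.symm_apply_apply]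

theorem HasMatRes.exists_conj {ρ : ResidualGaloisRep K} {r r' : Gal → M2 K} (h : HasMatRes ρ r)
    (h' : HasMatRes ρ r') : ∃ P Q : M2 K, P * Q = 1 ∧ Q * P = 1 ∧ ∀ σ, r' σ * P = P * r σ := by
  obtain ⟨b, hb⟩ := h
  obtain ⟨b', hb'⟩ := h'
  refine ⟨b'.toMatrix b, b.toMatrix b', Module.Basis.toMatrix_mul_toMatrix_flip b' b,
    Module.Basis.toMatrix_mul_toMatrix_flip b b', fun σ => ?_⟩
  rw [← hb, ← hb', linearMap_toMatrix_mul_basis_toMatrix, basis_toMatrix_mul_linearMap_toMatrix]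

theorem HasMatRes.baseChangeAlong {K' : Type} [Field K'] {ρ : ResidualGaloisRep K}
    {r : Gal → M2 K} (h : HasMatRes ρ r) (ψ : K →+* K') :
    HasMatRes (ρ.baseChangeAlong ψ) (fun σ => (r σ).map ψ) := by
  obtain ⟨b, hb⟩ := h
  let _ : Algebra K K' := ψ.toAlgebra
  refine ⟨Algebra.TensorProduct.basis K' b, fun σ => ?_⟩
  show LinearMap.toMatrix (Algebra.TensorProduct.basis K' b) (Algebra.TensorProduct.basis K' b)
    ((ρ.ρ σ).baseChange K') = (r σ).map ψ
  rw [← hb]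
  exact LinearMap.toMatrix_baseChange K' (ρ.ρ σ) b b

theorem HasMat.residual {A : Type} [CommRing A] [IsLocalRing A] {ρ : GaloisRepAdic A}
    {r : Gal → M2 A} (h : HasMat ρ r) :
    HasMatRes ρ.residual (fun σ => (r σ).map (residue A)) := by
  obtain ⟨b, hb⟩ := h
  refine ⟨Algebra.TensorProduct.basis (ResidueField A) b, fun σ => ?_⟩
  show LinearMap.toMatrix (Algebra.TensorProduct.basis (ResidueField A) b)
    (Algebra.TensorProduct.basis (ResidueField A) b)
    ((ρ.ρ σ).baseChange (ResidueField A)) = (r σ).map (residue A)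
  rw [← hb]
  exact LinearMap.toMatrix_baseChange (ResidueField A) (ρ.ρ σ) b b

theorem HasMat.ofResidualGaloisRep {ρ : ResidualGaloisRep K} {r : Gal → M2 K}
    (h : HasMatRes ρ r) : HasMat (GaloisRepAdic.ofResidualGaloisRep ρ) r := h

/-- (L←) -/
theorem HasMat.residual_isEquiv {A : Type} [CommRing A] [IsLocalRing A] {ρ : GaloisRepAdic A}
    {r : Gal → M2 A} (h : HasMat ρ r) {ρbar : ResidualGaloisRep K} {N : Gal → M2 K}
    (hN : HasMatRes ρbar N) (ψ : K →+* ResidueField A)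
    (hr : ∀ σ i j, residue A (r σ i j) = ψ (N σ i j)) :
    ρ.residual.IsEquiv (ρbar.baseChangeAlong ψ) := by
  refine h.residual.isEquiv ?_
  have : (fun σ => (r σ).map (residue A)) = (fun σ => (N σ).map ψ) := by
    funext σ
    ext i j
    exact hr σ i j
  rw [this]
  exact hN.baseChangeAlong ψ

/-- (L→) -/
theorem exists_hasMat_of_residual_isEquiv {A : Type} [CommRing A] [IsLocalRing A]
    (ρ : GaloisRepAdic A) {ρbar : ResidualGaloisRep K} {N : Gal → M2 K}
    (hN : HasMatRes ρbar N) (ψ : K →+* ResidueField A)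
    (he : ρ.residual.IsEquiv (ρbar.baseChangeAlong ψ)) :
    ∃ r, HasMat ρ r ∧ ∀ σ i j, residue A (r σ i j) = ψ (N σ i j) := by
  obtain ⟨r₁, h₁⟩ := exists_hasMat ρ
  have h2 : HasMatRes ρ.residual (fun σ => (N σ).map ψ) :=
    (hN.baseChangeAlong ψ).of_isEquiv (by obtain ⟨e⟩ := he; exact ⟨e.symm⟩)
  obtain ⟨Pb, Qb, hPQ, hQP, hconj⟩ := h₁.residual.exists_conj h2
  -- lift `Pb`
  choose P hP using fun i j => residue_surjective (R := A) (Pb i j)
  let PM : M2 A := Matrix.of P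
  have hPM : (residue A).mapMatrix PM = Pb := by
    ext i j
    exact hP i j
  have hdet : IsUnit PM.det := by
    have h3 : residue A PM.det = Pb.det := by rw [RingHom.map_det, hPM]
    have h4 : Pb.det * Qb.det = 1 := by rw [← Matrix.det_mul, hPQ, Matrix.det_one]
    by_contra hu
    have h5 : residue A PM.det = 0 := (residue_eq_zero_iff _).mpr hu
    rw [h3] at h5
    rw [h5, zero_mul] at h4
    exact zero_ne_one h4
  have hinv1 : PM * PM⁻¹ = 1 := Matrix.mul_nonsing_inv PM hdet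
  have hinv2 : PM⁻¹ * PM = 1 := Matrix.nonsing_inv_mul PM hdet
  refine ⟨_, h₁.conj PM⁻¹ PM hinv2, fun σ i j => ?_⟩
  have h6 : (residue A).mapMatrix (PM * r₁ σ * PM⁻¹) = (N σ).map ψ := by
    have h7 : (residue A).mapMatrix PM⁻¹ = Qb := by
      have : Pb * (residue A).mapMatrix PM⁻¹ = 1 := by
        rw [← hPM, ← _root_.map_mul, hinv1, _root_.map_one]
      calc (residue A).mapMatrix PM⁻¹ = (Qb * Pb) * (residue A).mapMatrix PM⁻¹ := by
            rw [hQP, Matrix.one_mul]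
        _ = Qb := by rw [Matrix.mul_assoc, this, Matrix.mul_one]
    rw [_root_.map_mul, _root_.map_mul, hPM, h7]
    have h8 := hconj σ
    show Pb * (r₁ σ).map (residue A) * Qb = _
    rw [← h8, Matrix.mul_assoc, hPQ, Matrix.mul_one]
  exact congrFun (congrFun h6 i) j

end residual

end Fermat.Agent.S53lib
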