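import Fermat.Agent.S53.MatRep
set_option autoImplicit false
set_option linter.unusedSectionVars false

namespace Fermat.Agent.S53lib

open IsLocalRing Polynomial

section
variable {A : Type} [CommRing A] [IsLocalRing A]

theorem isUnit_of_residue_eq_one {x : A} (h : residue A x = 1) : IsUnit x := by
  by_contra hu
  have : residue A x = 0 := (residue_eq_zero_iff _).mpr hu
  rw [this] at h
  exact zero_ne_one h

theorem exists_root_quadratic [IsAdicComplete (maximalIdeal A) A]
    (t D : A) (ht : residue A t = 1) (hD : residue A D = 0) :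
    ∃ α : A, α * α - t * α + D = 0 ∧ residue A α = 1 := by
  let f : A[X] := X ^ 2 - C t * X + C D
  have hf : f.Monic := by
    show (X ^ 2 - C t * X + C D : A[X]).Monic
    monicity!
  have h1 : f.eval 1 ∈ maximalIdeal A := by
    rw [← residue_eq_zero_iff]
    simp [f, ht, hD]
  have h2 : IsUnit (Ideal.Quotient.mk (maximalIdeal A) (f.derivative.eval 1)) := by
    have : residue A (f.derivative.eval 1) = 1 := by
      simp [f, ht]
    exact (this ▸ isUnit_one : IsUnit (residue A (f.derivative.eval 1)))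
  obtain ⟨α, hα, hα1⟩ := HenselianRing.is_henselian f hf 1 h1 h2
  refine ⟨α, ?_, ?_⟩
  · have : f.eval α = 0 := hα
    simp only [f, eval_add, eval_sub, eval_pow, eval_X, eval_mul, eval_C] at this
    linear_combination this
  · have := (residue_eq_zero_iff _).mpr hα1
    rw [map_sub, map_one, sub_eq_zero] at this
    exact this

theorem exists_diagonalize [IsAdicComplete (maximalIdeal A) A] (Mx : M2 A)
    (h00 : residue A (Mx 0 0) = 1) (h01 : residue A (Mx 0 1) = 0)
    (h10 : residue A (Mx 1 0) = 0) (h11 : residue A (Mx 1 1) = 0) :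
    ∃ P Q : M2 A, P * Q = 1 ∧ Q * P = 1 ∧ (residue A).mapMatrix P = 1 ∧
      (Q * Mx * P) 0 1 = 0 ∧ (Q * Mx * P) 1 0 = 0 := by
  set p := Mx 0 0
  set q := Mx 0 1
  set r := Mx 1 0
  set s := Mx 1 1
  obtain ⟨α, hα, hα1⟩ := exists_root_quadratic (p + s) (p * s - q * r)
    (by simp [h00, h11]) (by simp [h00, h11, h01])
  set δ := p + s - α with hδ
  have hδ0 : residue A δ = 0 := by simp [hδ, h00, h11, hα1]
  let P : M2 A := !![p - δ, -q; r, α - s]
  have hMx : Mx = !![p, q; r, s] := Matrix.eta_fin_two Mx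
  have hdet : IsUnit P.det := by
    apply isUnit_of_residue_eq_one
    simp [P, Matrix.det_fin_two_of, h00, h01, h10, h11, hα1, hδ0]
  have hcomm : Mx * P = P * !![α, 0; 0, δ] := by
    rw [hMx]
    simp only [P, Matrix.mul_fin_two]
    ext i j
    fin_cases i <;> fin_cases j <;> simp <;> simp only [hδ] <;>
      first | ring1 | linear_combination hα | linear_combination -hα
  have hinv1 : P * P⁻¹ = 1 := Matrix.mul_nonsing_inv P hdet
  have hinv2 : P⁻¹ * P = 1 := Matrix.nonsing_inv_mul P hdet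
  have hres : (residue A).mapMatrix P = 1 := by
    ext i j
    fin_cases i <;> fin_cases j <;> simp [P, h00, h01, h10, h11, hα1, hδ0]
  have hfin : P⁻¹ * Mx * P = !![α, 0; 0, δ] := by
    rw [Matrix.mul_assoc, hcomm, ← Matrix.mul_assoc, hinv2, Matrix.one_mul]
  refine ⟨P, P⁻¹, hinv1, hinv2, hres, ?_, ?_⟩
  · rw [hfin]; simp
  · rw [hfin]; simp

theorem exists_normalize [IsAdicComplete (maximalIdeal A) A] (Mx C : M2 A)
    (hM : (residue A).mapMatrix Mx = !![1, 0; 0, 0])
    (hC : (residue A).mapMatrix C = !![0, 0; 1, 0]) :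
    ∃ P Q : M2 A, P * Q = 1 ∧ Q * P = 1 ∧ (residue A).mapMatrix P = 1 ∧
      (residue A).mapMatrix Q = 1 ∧
      (Q * Mx * P) 0 1 = 0 ∧ (Q * Mx * P) 1 0 = 0 ∧ (Q * C * P) 1 0 = 1 := by
  have e : ∀ i j, residue A (Mx i j) = (!![1, 0; 0, 0] : M2 (ResidueField A)) i j := fun i j => by
    rw [← hM]; rfl
  obtain ⟨P₁, Q₁, hPQ, hQP, hP1, h01, h10⟩ := exists_diagonalize Mx (by simpa using e 0 0)
    (by simpa using e 0 1) (by simpa using e 1 0) (by simpa using e 1 1)
  have hQ1 : (residue A).mapMatrix Q₁ = 1 := by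
    have := congrArg (residue A).mapMatrix hQP
    rwa [_root_.map_mul, hP1, Matrix.mul_one, _root_.map_one] at this
  set C' := Q₁ * C * P₁ with hC'
  have hC'res : (residue A).mapMatrix C' = !![0, 0; 1, 0] := by
    rw [hC', _root_.map_mul, _root_.map_mul, hP1, hQ1, Matrix.one_mul, Matrix.mul_one, hC]
  have hu1 : residue A (C' 1 0) = 1 := by
    have : residue A (C' 1 0) = (!![0, 0; 1, 0] : M2 (ResidueField A)) 1 0 := by
      rw [← hC'res]; rfl
    simpa using this
  obtain ⟨u, hu⟩ := isUnit_of_residue_eq_one hu1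
  have hui : residue A (↑u⁻¹ : A) = 1 := by
    have h := congrArg (residue A) (Units.inv_mul u)
    rwa [_root_.map_mul, hu, hu1, mul_one, _root_.map_one] at h
  let D : M2 A := !![1, 0; 0, (u : A)]
  let Di : M2 A := !![1, 0; 0, (↑u⁻¹ : A)]
  have hD1 : D * Di = 1 := by
    simp only [D, Di, Matrix.mul_fin_two]
    ext i j
    fin_cases i <;> fin_cases j <;> simp
  have hD2 : Di * D = 1 := by
    simp only [D, Di, Matrix.mul_fin_two]
    ext i j
    fin_cases i <;> fin_cases j <;> simp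
  have hDres : (residue A).mapMatrix D = 1 := by
    ext i j
    fin_cases i <;> fin_cases j <;> simp [D, hu, hu1]
  have hDires : (residue A).mapMatrix Di = 1 := by
    ext i j
    fin_cases i <;> fin_cases j <;> simp [Di, hui]
  have hconj : ∀ X : M2 A, Di * Q₁ * X * (P₁ * D) = Di * (Q₁ * X * P₁) * D := fun X => by
    simp only [Matrix.mul_assoc]
  have hentry : ∀ Y : M2 A, Di * Y * D =
      !![Y 0 0, Y 0 1 * u; ↑u⁻¹ * Y 1 0, ↑u⁻¹ * Y 1 1 * u] := fun Y => by
    conv_lhs => rw [Matrix.eta_fin_two Y]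
    simp only [D, Di, Matrix.mul_fin_two]
    ext i j
    fin_cases i <;> fin_cases j <;> simp
  refine ⟨P₁ * D, Di * Q₁, ?_, ?_, ?_, ?_, ?_, ?_, ?_⟩
  · rw [Matrix.mul_assoc, ← Matrix.mul_assoc D, hD1, Matrix.one_mul, hPQ]
  · rw [Matrix.mul_assoc, ← Matrix.mul_assoc Q₁, hQP, Matrix.one_mul, hD2]
  · rw [_root_.map_mul, hP1, hDres, Matrix.one_mul]
  · rw [_root_.map_mul, hQ1, hDires, Matrix.one_mul]
  · rw [hconj, hentry]; simp [h01]
  · rw [hconj, hentry]; simp [h10]
  · rw [hconj, hentry]; simp [← hC', ← hu]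

theorem scalar_of_conj_normalized (Mx Mx' C C' P Q : M2 A) (hPQ : P * Q = 1)
    (hM : Mx' * P = P * Mx) (hC : C' * P = P * C)
    (h00 : residue A (Mx 0 0) = 1) (h11 : residue A (Mx 1 1) = 0)
    (h00' : residue A (Mx' 0 0) = 1) (h11' : residue A (Mx' 1 1) = 0)
    (n01 : Mx 0 1 = 0) (n10 : Mx 1 0 = 0) (n01' : Mx' 0 1 = 0) (n10' : Mx' 1 0 = 0)
    (c10 : C 1 0 = 1) (c10' : C' 1 0 = 1) :
    IsUnit (P 0 0) ∧ P = (P 0 0) • (1 : M2 A) := by
  have e01 := congrFun (congrFun hM 0) 1
  have e10 := congrFun (congrFun hM 1) 0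
  have f10 := congrFun (congrFun hC 1) 0
  simp only [Matrix.mul_apply, Fin.sum_univ_two] at e01 e10 f10
  rw [n01, n01'] at e01
  rw [n10, n10'] at e10
  have u1 : IsUnit (Mx' 0 0 - Mx 1 1) := isUnit_of_residue_eq_one (by simp [h00', h11])
  have u2 : IsUnit (Mx 0 0 - Mx' 1 1) := isUnit_of_residue_eq_one (by simp [h00, h11'])
  have p01 : P 0 1 = 0 := by
    have : (Mx' 0 0 - Mx 1 1) * P 0 1 = 0 := by linear_combination e01
    exact (u1.mul_right_eq_zero).mp this
  have p10 : P 1 0 = 0 := by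
    have : (Mx 0 0 - Mx' 1 1) * P 1 0 = 0 := by linear_combination -e10
    exact (u2.mul_right_eq_zero).mp this
  have p11 : P 1 1 = P 0 0 := by
    rw [c10, c10', p10] at f10
    linear_combination -f10
  constructor
  · have := congrFun (congrFun hPQ 0) 0
    simp only [Matrix.mul_apply, Fin.sum_univ_two, p01, Matrix.one_apply_eq, zero_mul,
      add_zero] at this
    exact IsUnit.of_mul_eq_one _ this
  · ext i j
    fin_cases i <;> fin_cases j <;> simp [p01, p10, p11]

end

end Fermat.Agent.S53lib
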