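import Fermat.Agent.S53.NormalForm
set_option autoImplicit false
set_option linter.unusedSectionVars false

namespace Fermat.Agent.S53lib

open IsLocalRing

/-- Rigidification data. -/
structure NData (𝒪 : Type) [CommRing 𝒪] [IsLocalRing 𝒪] where
  ρt : Gal → M2 𝒪
  a : Gal →₀ 𝒪
  c : Gal →₀ 𝒪
  ha : (residue 𝒪).mapMatrix (a.sum fun g t => t • ρt g) = !![1, 0; 0, 0]
  hc : (residue 𝒪).mapMatrix (c.sum fun g t => t • ρt g) = !![0, 0; 1, 0]

variable {𝒪 : Type} [CommRing 𝒪] [IsLocalRing 𝒪]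

def lin {A : Type} [CommRing A] [Algebra 𝒪 A] (w : Gal →₀ 𝒪) (r : Gal → M2 A) : M2 A :=
  w.sum fun g t => t • r g

theorem lin_map {A B : Type} [CommRing A] [Algebra 𝒪 A] [CommRing B] [Algebra 𝒪 B]
    (φ : A →ₐ[𝒪] B) (w : Gal →₀ 𝒪) (r : Gal → M2 A) :
    lin w (fun σ => (r σ).map φ) = (lin w r).map φ := by
  have : ∀ M : M2 A, M.map φ = φ.mapMatrix M := fun M => rfl
  simp only [lin, Finsupp.sum, this, map_sum, map_smul]

theorem lin_conj {A : Type} [CommRing A] [Algebra 𝒪 A] (w : Gal →₀ 𝒪) (r : Gal → M2 A)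
    (P Q : M2 A) : lin w (fun σ => Q * r σ * P) = Q * lin w r * P := by
  simp only [lin, Finsupp.sum, Finset.mul_sum, Finset.sum_mul, Matrix.mul_smul, Matrix.smul_mul]

theorem mapMatrix_lin {A K : Type} [CommRing A] [Algebra 𝒪 A] [CommRing K] (π : A →+* K)
    (w : Gal →₀ 𝒪) (r : Gal → M2 A) (ρt : Gal → M2 𝒪)
    (h : ∀ σ i j, π (r σ i j) = π (algebraMap 𝒪 A (ρt σ i j))) :
    π.mapMatrix (lin w r) = (π.comp (algebraMap 𝒪 A)).mapMatrix (w.sum fun g t => t • ρt g) := by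
  simp only [lin, Finsupp.sum, map_sum]
  refine Finset.sum_congr rfl fun g _ => ?_
  ext i j
  simp only [RingHom.mapMatrix_apply, Matrix.map_apply, Matrix.smul_apply, RingHom.comp_apply]
  rw [Algebra.smul_def, _root_.map_mul, h, smul_eq_mul, _root_.map_mul, _root_.map_mul]

namespace NData

variable (Dt : NData 𝒪) {A : Type} [CommRing A] [IsLocalRing A] [Algebra 𝒪 A]

def Lifts (r : Gal → M2 A) : Prop :=
  ∀ σ i j, residue A (r σ i j) = residue A (algebraMap 𝒪 A (Dt.ρt σ i j))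

def Normalized (r : Gal → M2 A) : Prop :=
  lin Dt.a r 0 1 = 0 ∧ lin Dt.a r 1 0 = 0 ∧ lin Dt.c r 1 0 = 1

variable {Dt}

theorem residue_comp [IsLocalHom (algebraMap 𝒪 A)] :
    (residue A).comp (algebraMap 𝒪 A) =
      (ResidueField.map (algebraMap 𝒪 A)).comp (residue 𝒪) := by
  ext x
  simp [ResidueField.map_residue]

theorem Lifts.residue_lin_a [IsLocalHom (algebraMap 𝒪 A)] {r : Gal → M2 A} (h : Dt.Lifts r) :
    (residue A).mapMatrix (lin Dt.a r) = !![1, 0; 0, 0] := by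
  rw [mapMatrix_lin _ _ _ _ h, residue_comp, ← RingHom.mapMatrix_comp, RingHom.comp_apply, Dt.ha]
  ext i j
  fin_cases i <;> fin_cases j <;> simp

theorem Lifts.residue_lin_c [IsLocalHom (algebraMap 𝒪 A)] {r : Gal → M2 A} (h : Dt.Lifts r) :
    (residue A).mapMatrix (lin Dt.c r) = !![0, 0; 1, 0] := by
  rw [mapMatrix_lin _ _ _ _ h, residue_comp, ← RingHom.mapMatrix_comp, RingHom.comp_apply, Dt.hc]
  ext i j
  fin_cases i <;> fin_cases j <;> simp

theorem exists_normalized [IsLocalHom (algebraMap 𝒪 A)] [IsAdicComplete (maximalIdeal A) A]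
    {ρ : GaloisRepAdic A} {r : Gal → M2 A} (h : HasMat ρ r) (hl : Dt.Lifts r) :
    ∃ r', HasMat ρ r' ∧ Dt.Lifts r' ∧ Dt.Normalized r' := by
  obtain ⟨P, Q, hPQ, hQP, hP, hQ, h1, h2, h3⟩ :=
    exists_normalize (lin Dt.a r) (lin Dt.c r) hl.residue_lin_a hl.residue_lin_c
  refine ⟨_, h.conj P Q hPQ, fun σ i j => ?_, ?_, ?_, ?_⟩
  · have : (residue A).mapMatrix (Q * r σ * P) = (residue A).mapMatrix (r σ) := by
      rw [_root_.map_mul, _root_.map_mul, hP, hQ, Matrix.one_mul, Matrix.mul_one]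
    rw [← hl σ i j]
    exact congrFun (congrFun this i) j
  · rw [lin_conj]; exact h1
  · rw [lin_conj]; exact h2
  · rw [lin_conj]; exact h3

theorem eq_of_isEquiv [IsLocalHom (algebraMap 𝒪 A)]
    {ρ ρ' : GaloisRepAdic A} {r r' : Gal → M2 A} (h : HasMat ρ r) (h' : HasMat ρ' r')
    (e : ρ.IsEquiv ρ') (hl : Dt.Lifts r) (hl' : Dt.Lifts r')
    (hn : Dt.Normalized r) (hn' : Dt.Normalized r') : r = r' := by
  obtain ⟨P, Q, hPQ, hQP, hconj⟩ := (h.of_isEquiv e).exists_conj h'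
  have hlin : ∀ w : Gal →₀ 𝒪, lin w r' * P = P * lin w r := fun w => by
    simp only [lin, Finsupp.sum, Finset.mul_sum, Finset.sum_mul, Matrix.mul_smul,
      Matrix.smul_mul, hconj]
  have ea : ∀ i j, residue A (lin Dt.a r i j) = (!![1, 0; 0, 0] : M2 (ResidueField A)) i j :=
    fun i j => by rw [← hl.residue_lin_a]; rfl
  have ea' : ∀ i j, residue A (lin Dt.a r' i j) = (!![1, 0; 0, 0] : M2 (ResidueField A)) i j :=
    fun i j => by rw [← hl'.residue_lin_a]; rfl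
  obtain ⟨hu, hP⟩ := scalar_of_conj_normalized (lin Dt.a r) (lin Dt.a r') (lin Dt.c r)
    (lin Dt.c r') P Q hPQ (hlin _) (hlin _) (by simpa using ea 0 0) (by simpa using ea 1 1)
    (by simpa using ea' 0 0) (by simpa using ea' 1 1) hn.1 hn.2.1 hn'.1 hn'.2.1 hn.2.2 hn'.2.2
  funext σ
  have := hconj σ
  rw [hP, Matrix.mul_smul, Matrix.smul_mul, Matrix.mul_one, Matrix.one_mul] at this
  ext i j
  have h2 := congrFun (congrFun this i) j
  simp only [Matrix.smul_apply, smul_eq_mul] at h2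
  exact (hu.mul_left_cancel h2).symm

theorem Lifts.map {B : Type} [CommRing B] [IsLocalRing B] [Algebra 𝒪 B] {r : Gal → M2 A}
    (h : Dt.Lifts r) (φ : A →ₐ[𝒪] B) [IsLocalHom (φ : A →+* B)] :
    Dt.Lifts (fun σ => (r σ).map φ) := by
  intro σ i j
  have := congrArg (ResidueField.map (φ : A →+* B)) (h σ i j)
  rw [ResidueField.map_residue, ResidueField.map_residue] at this
  simpa using this

theorem Normalized.map {B : Type} [CommRing B] [IsLocalRing B] [Algebra 𝒪 B] {r : Gal → M2 A}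
    (h : Dt.Normalized r) (φ : A →ₐ[𝒪] B) :
    Dt.Normalized (fun σ => (r σ).map φ) := by
  refine ⟨?_, ?_, ?_⟩
  · rw [lin_map, Matrix.map_apply, h.1, map_zero]
  · rw [lin_map, Matrix.map_apply, h.2.1, map_zero]
  · rw [lin_map, Matrix.map_apply, h.2.2, map_one]

end NData

end Fermat.Agent.S53lib
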