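import Mathlib
set_option autoImplicit false

namespace Fermat.Agent.S53lib

theorem exists_series_limit {Λ : Type*} [CommRing Λ] (m : Ideal Λ) [IsPrecomplete m Λ] (k : ℕ)
    (e : ℕ → Λ) (he : ∀ j, e j ∈ m ^ (k + j)) :
    ∃ S, ∀ j, S - ∑ i ∈ Finset.range j, e i ∈ m ^ (k + j) := by
  let f : ℕ → Λ := fun n => ∑ i ∈ Finset.range (n - k), e i
  have hf : ∀ {a b : ℕ}, a ≤ b → f a ≡ f b [SMOD (m ^ a • ⊤ : Submodule Λ Λ)] := by
    intro a b hab
    rw [SModEq.comm, SModEq.sub_mem]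
    simp only [smul_eq_mul, Ideal.mul_top, f]
    rw [← Finset.sum_sdiff (Finset.range_subset_range.mpr (Nat.sub_le_sub_right hab k)),
      add_sub_cancel_right]
    refine Ideal.sum_mem _ fun i hi => ?_
    have hi' : a - k ≤ i := by
      simp only [Finset.mem_sdiff, Finset.mem_range, not_lt] at hi
      exact hi.2
    exact Ideal.pow_le_pow_right (by omega) (he i)
  obtain ⟨L, hL⟩ := IsPrecomplete.prec ‹IsPrecomplete m Λ› hf
  refine ⟨L, fun j => ?_⟩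
  have := (hL (k + j)).symm
  rw [SModEq.sub_mem] at this
  simpa [f] using this

theorem exists_limit_of_filtration {Λ : Type*} [CommRing Λ] (m : Ideal Λ) [IsPrecomplete m Λ]
    (a : ℕ → Ideal Λ)
    (h1 : ∀ n, m ^ (n + 1) ≤ a n) (h3 : ∀ n, a n ≤ a (n + 1) ⊔ m ^ (n + 1))
    (c : ℕ → Λ) (hc : ∀ n, c (n + 1) - c n ∈ a n) (n₀ : ℕ) (t₀ : Λ) (ht₀ : t₀ - c n₀ ∈ a n₀) :
    ∃ L, (∀ j, L - c (n₀ + j) ∈ a (n₀ + j)) ∧ L - t₀ ∈ m ^ (n₀ + 1) := by
  have step : ∀ (j : ℕ) (t : {t : Λ // t - c (n₀ + j) ∈ a (n₀ + j)}),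
      ∃ t' : {t : Λ // t - c (n₀ + (j + 1)) ∈ a (n₀ + (j + 1))},
        t'.1 - t.1 ∈ m ^ (n₀ + 1 + j) := by
    rintro j ⟨t, ht⟩
    have h4 : c (n₀ + j + 1) - t ∈ a (n₀ + j) := by
      have := (a (n₀ + j)).sub_mem (hc (n₀ + j)) ht
      convert this using 1
      ring
    obtain ⟨κ, hκ, μ, hμ, hκμ⟩ := Submodule.mem_sup.mp (h3 _ h4)
    refine ⟨⟨t + μ, ?_⟩, ?_⟩
    · have : t + μ - c (n₀ + (j + 1)) = -κ := by
        have e1 : c (n₀ + (j + 1)) = c (n₀ + j + 1) := rfl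
        rw [e1]
        linear_combination hκμ
      rw [this]
      exact (a _).neg_mem hκ
    · have : t + μ - t = μ := by ring
      simp only [this]
      have e2 : n₀ + 1 + j = n₀ + j + 1 := by ring
      rw [e2]
      exact hμ
  choose nxt hnxt using step
  let s : ∀ j : ℕ, {t : Λ // t - c (n₀ + j) ∈ a (n₀ + j)} := fun j =>
    Nat.rec (motive := fun j => {t : Λ // t - c (n₀ + j) ∈ a (n₀ + j)}) ⟨t₀, ht₀⟩
      (fun j t => nxt j t) j
  have hs0 : (s 0).1 = t₀ := rfl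
  have hs : ∀ j, (s (j + 1)).1 - (s j).1 ∈ m ^ (n₀ + 1 + j) := fun j => hnxt j (s j)
  obtain ⟨S, hS⟩ := exists_series_limit m (n₀ + 1) (fun j => (s (j + 1)).1 - (s j).1) hs
  have hsum : ∀ j, ∑ i ∈ Finset.range j, ((s (i + 1)).1 - (s i).1) = (s j).1 - t₀ := fun j => by
    rw [Finset.sum_range_sub (fun i => (s i).1), hs0]
  refine ⟨t₀ + S, fun j => ?_, ?_⟩
  · have h5 := hS j
    rw [hsum] at h5
    have h6 : m ^ (n₀ + 1 + j) ≤ a (n₀ + j) := by
      have e2 : n₀ + 1 + j = n₀ + j + 1 := by ring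
      rw [e2]; exact h1 _
    have := (a (n₀ + j)).add_mem (h6 h5) (s j).2
    convert this using 1
    ring
  · have h5 := hS 0
    simpa using h5

end Fermat.Agent.S53lib
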