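import Fermat.Agent.S53.P2a
set_option autoImplicit false
set_option linter.unusedSectionVars false

namespace Fermat.Agent.S53lib

open IsLocalRing

structure EvSys (Λ U : Type) [CommRing Λ] [IsLocalRing Λ] [CommRing U] (F : Set (Ideal U)) where
  ev : ∀ I : Ideal U, I ∈ F → (Λ →+* U ⧸ I)
  surj : ∀ I hI, Function.Surjective (ev I hI)
  compat : ∀ I hI J hJ (h : I ≤ J), (Ideal.Quotient.factor h).comp (ev I hI) = ev J hJ
  nil : ∀ I hI, ∃ N : ℕ, maximalIdeal Λ ^ N ≤ RingHom.ker (ev I hI)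

namespace EvSys

variable {Λ U : Type} [CommRing Λ] [IsLocalRing Λ] [CommRing U] {F : Set (Ideal U)}
  (E : EvSys Λ U F)

def K (I : Ideal U) (hI : I ∈ F) : Ideal Λ := RingHom.ker (E.ev I hI)

theorem mem_K {I : Ideal U} {hI : I ∈ F} {f : Λ} : f ∈ E.K I hI ↔ E.ev I hI f = 0 := Iff.rfl

theorem compat_apply {I J : Ideal U} (hI : I ∈ F) (hJ : J ∈ F) (h : I ≤ J) (f : Λ) :
    Ideal.Quotient.factor h (E.ev I hI f) = E.ev J hJ f :=
  RingHom.congr_fun (E.compat I hI J hJ h) f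

theorem ev_eq_mk_of_le {I J : Ideal U} (hI : I ∈ F) (hJ : J ∈ F) (h : I ≤ J) {f : Λ} {y : U}
    (hf : E.ev I hI f = Ideal.Quotient.mk I y) : E.ev J hJ f = Ideal.Quotient.mk J y := by
  rw [← E.compat_apply hI hJ h, hf]
  rfl

theorem K_mono {I J : Ideal U} (hI : I ∈ F) (hJ : J ∈ F) (h : I ≤ J) : E.K I hI ≤ E.K J hJ := by
  intro f hf
  rw [mem_K] at hf ⊢
  rw [← E.compat_apply hI hJ h, hf, map_zero]

theorem K_inf {I J : Ideal U} (hI : I ∈ F) (hJ : J ∈ F) (hIJ : I ⊓ J ∈ F) :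
    E.K I hI ⊓ E.K J hJ ≤ E.K (I ⊓ J) hIJ := by
  rintro f ⟨h1, h2⟩
  obtain ⟨y, hy⟩ := Ideal.Quotient.mk_surjective (E.ev (I ⊓ J) hIJ f)
  have e1 := E.ev_eq_mk_of_le hIJ hI inf_le_left hy.symm
  have e2 := E.ev_eq_mk_of_le hIJ hJ inf_le_right hy.symm
  rw [SetLike.mem_coe, mem_K] at h1 h2
  rw [h1] at e1
  rw [h2] at e2
  rw [mem_K, ← hy, Ideal.Quotient.eq_zero_iff_mem]
  exact ⟨Ideal.Quotient.eq_zero_iff_mem.mp e1.symm, Ideal.Quotient.eq_zero_iff_mem.mp e2.symm⟩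

theorem le_of_K_le (hinf : ∀ I ∈ F, ∀ J ∈ F, I ⊓ J ∈ F) {I J : Ideal U} (hI : I ∈ F) (hJ : J ∈ F)
    (h : E.K I hI ≤ E.K J hJ) : I ≤ J := by
  intro y hy
  have hIJ := hinf I hI J hJ
  obtain ⟨f, hf⟩ := E.surj _ hIJ (Ideal.Quotient.mk _ y)
  have e1 := E.ev_eq_mk_of_le hIJ hI inf_le_left hf
  have e2 := E.ev_eq_mk_of_le hIJ hJ inf_le_right hf
  rw [Ideal.Quotient.eq_zero_iff_mem.mpr hy] at e1
  have : E.ev J hJ f = 0 := h e1
  rw [this] at e2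
  exact Ideal.Quotient.eq_zero_iff_mem.mp e2.symm

theorem map_max_le {I : Ideal U} (hI : I ∈ F) [IsLocalRing (U ⧸ I)] :
    (maximalIdeal Λ).map (E.ev I hI) ≤ maximalIdeal (U ⧸ I) := by
  have h1 : ((maximalIdeal (U ⧸ I)).comap (E.ev I hI)).IsMaximal :=
    Ideal.comap_isMaximal_of_surjective _ (E.surj I hI)
  rw [Ideal.map_le_iff_le_comap, IsLocalRing.eq_maximalIdeal h1]

theorem exists_sup (hloc : ∀ I ∈ F, IsLocalRing (U ⧸ I))
    (hup : ∀ I ∈ F, ∀ J : Ideal U, I ≤ J → J ≠ ⊤ → J ∈ F) {I : Ideal U} (hI : I ∈ F) (n : ℕ) :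
    ∃ (I' : Ideal U) (hI' : I' ∈ F), I ≤ I' ∧ E.K I' hI' = E.K I hI ⊔ maximalIdeal Λ ^ (n + 1) := by
  have := hloc I hI
  set T : Ideal (U ⧸ I) := (maximalIdeal Λ ^ (n + 1)).map (E.ev I hI) with hT
  have hTle : T ≤ maximalIdeal (U ⧸ I) :=
    (Ideal.map_mono (Ideal.pow_le_self (Nat.succ_ne_zero n))).trans (E.map_max_le hI)
  set I' : Ideal U := T.comap (Ideal.Quotient.mk I) with hI'def
  have hle : I ≤ I' := by
    intro y hy
    rw [hI'def, Ideal.mem_comap, Ideal.Quotient.eq_zero_iff_mem.mpr hy]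
    exact T.zero_mem
  have hne : I' ≠ ⊤ := by
    intro h
    have h1 : (1 : U) ∈ I' := h ▸ Submodule.mem_top
    have h2 : (1 : U ⧸ I) ∈ maximalIdeal (U ⧸ I) := hTle (by simpa [hI'def] using h1)
    exact (Ideal.ne_top_iff_one _).mp (Ideal.IsPrime.ne_top inferInstance) h2
  have hI' : I' ∈ F := hup I hI I' hle hne
  refine ⟨I', hI', hle, ?_⟩
  ext f
  obtain ⟨y, hy⟩ := Ideal.Quotient.mk_surjective (E.ev I hI f)
  have e1 := E.ev_eq_mk_of_le hI hI' hle hy.symm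
  rw [mem_K, e1, Ideal.Quotient.eq_zero_iff_mem, hI'def, Ideal.mem_comap, hy, hT,
    ← Ideal.mem_comap, Ideal.comap_map_of_surjective _ (E.surj I hI), sup_comm]
  rfl

theorem exists_min [IsNoetherianRing Λ] (hfin : ∀ n, Finite (Λ ⧸ maximalIdeal Λ ^ n))
    (hne : F.Nonempty) (hloc : ∀ I ∈ F, IsLocalRing (U ⧸ I))
    (hinf : ∀ I ∈ F, ∀ J ∈ F, I ⊓ J ∈ F)
    (hup : ∀ I ∈ F, ∀ J : Ideal U, I ≤ J → J ≠ ⊤ → J ∈ F) (n : ℕ) :
    ∃ (I₀ : Ideal U) (hI₀ : I₀ ∈ F), maximalIdeal Λ ^ (n + 1) ≤ E.K I₀ hI₀ ∧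
      ∀ (I : Ideal U) (hI : I ∈ F), maximalIdeal Λ ^ (n + 1) ≤ E.K I hI → I₀ ≤ I := by
  classical
  set m := maximalIdeal Λ ^ (n + 1) with hm
  let S : Set (Ideal U) := {I | ∃ hI : I ∈ F, m ≤ E.K I hI}
  have hSne : S.Nonempty := by
    obtain ⟨I, hI⟩ := hne
    obtain ⟨I', hI', -, hK⟩ := E.exists_sup hloc hup hI n
    exact ⟨I', hI', hK ▸ le_sup_right⟩
  have hSinf : ∀ I ∈ S, ∀ J ∈ S, I ⊓ J ∈ S := by
    rintro I ⟨hI, h1⟩ J ⟨hJ, h2⟩
    exact ⟨hinf I hI J hJ, (le_inf h1 h2).trans (E.K_inf hI hJ _)⟩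
  have hSfin : S.Finite := by
    have := hfin (n + 1)
    have hfinI : Finite (Ideal (Λ ⧸ m)) :=
      Finite.of_injective (fun I : Ideal (Λ ⧸ m) => (I : Set (Λ ⧸ m))) SetLike.coe_injective
    let g : S → Ideal (Λ ⧸ m) := fun I => (E.K I.1 I.2.choose).map (Ideal.Quotient.mk m)
    have hg : Function.Injective g := by
      rintro ⟨I, hI⟩ ⟨J, hJ⟩ hIJ
      have h1 : ∀ (I : Ideal U) (hI : I ∈ S),
          ((E.K I hI.choose).map (Ideal.Quotient.mk m)).comap (Ideal.Quotient.mk m) =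
            E.K I hI.choose := fun I hI => by
        rw [Ideal.comap_map_of_surjective _ Ideal.Quotient.mk_surjective, ← RingHom.ker_eq_comap_bot,
          Ideal.mk_ker, sup_eq_left]
        exact hI.choose_spec
      have h2 : E.K I hI.choose = E.K J hJ.choose := by
        rw [← h1 I hI, ← h1 J hJ]
        exact congrArg _ hIJ
      apply Subtype.ext
      exact le_antisymm (E.le_of_K_le hinf _ _ h2.le) (E.le_of_K_le hinf _ _ h2.ge)
    have : Finite S := Finite.of_injective g hg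
    exact Set.toFinite S
  have hne' : hSfin.toFinset.Nonempty := by simpa using hSne
  have hmem : hSfin.toFinset.inf' hne' id ∈ S :=
    Finset.inf'_mem S hSinf _ hne' id (fun I hI => by simpa using hI)
  obtain ⟨h1, h2⟩ := hmem
  refine ⟨_, h1, h2, fun I hI hle => ?_⟩
  exact Finset.inf'_le id (hSfin.mem_toFinset.mpr ⟨hI, hle⟩)

end EvSys

end Fermat.Agent.S53lib
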