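import Fermat.Agent.S53.P2b
set_option autoImplicit false
set_option linter.unusedSectionVars false

namespace Fermat.Agent.S53lib

open IsLocalRing

namespace EvSys

variable {Λ U : Type} [CommRing Λ] [IsLocalRing Λ] [CommRing U] {F : Set (Ideal U)}
  (E : EvSys Λ U F)

/-- a cofinal decreasing chain in `F` adapted to the `m`-adic filtration. -/
structure Chain where
  I : ℕ → Ideal U
  mem : ∀ n, I n ∈ F
  pow_le : ∀ n, maximalIdeal Λ ^ (n + 1) ≤ E.K (I n) (mem n)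
  min : ∀ n (J : Ideal U) (hJ : J ∈ F), maximalIdeal Λ ^ (n + 1) ≤ E.K J hJ → I n ≤ J

theorem exists_chain [IsNoetherianRing Λ] (hfin : ∀ n, Finite (Λ ⧸ maximalIdeal Λ ^ n))
    (hne : F.Nonempty) (hloc : ∀ I ∈ F, IsLocalRing (U ⧸ I))
    (hinf : ∀ I ∈ F, ∀ J ∈ F, I ⊓ J ∈ F)
    (hup : ∀ I ∈ F, ∀ J : Ideal U, I ≤ J → J ≠ ⊤ → J ∈ F) : Nonempty E.Chain := by
  choose I mem h1 h2 using E.exists_min hfin hne hloc hinf hup
  exact ⟨⟨I, mem, h1, h2⟩⟩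

namespace Chain

variable {E} (C : E.Chain)

theorem succ_le (n : ℕ) : C.I (n + 1) ≤ C.I n :=
  C.min (n + 1) _ (C.mem n) ((Ideal.pow_le_pow_right (Nat.le_succ _)).trans (C.pow_le n))

theorem anti : Antitone C.I := antitone_nat_of_succ_le C.succ_le

theorem cofinal (I : Ideal U) (hI : I ∈ F) : ∃ n, C.I n ≤ I := by
  obtain ⟨N, hN⟩ := E.nil I hI
  exact ⟨N, C.min N I hI ((Ideal.pow_le_pow_right (Nat.le_succ _)).trans hN)⟩

theorem K_le_sup (hloc : ∀ I ∈ F, IsLocalRing (U ⧸ I))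
    (hup : ∀ I ∈ F, ∀ J : Ideal U, I ≤ J → J ≠ ⊤ → J ∈ F) (n : ℕ) :
    E.K (C.I n) (C.mem n) ≤ E.K (C.I (n + 1)) (C.mem (n + 1)) ⊔ maximalIdeal Λ ^ (n + 1) := by
  obtain ⟨I', hI', -, hK⟩ := E.exists_sup hloc hup (C.mem (n + 1)) n
  rw [← hK]
  exact E.K_mono _ _ (C.min n I' hI' (hK ▸ le_sup_right))

/-- every element of `U` is represented compatibly by an element of `Λ`. -/
theorem exists_rel (C : E.Chain) [IsPrecomplete (maximalIdeal Λ) Λ] (hloc : ∀ I ∈ F, IsLocalRing (U ⧸ I))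
    (hup : ∀ I ∈ F, ∀ J : Ideal U, I ≤ J → J ≠ ⊤ → J ∈ F) (y : U) :
    ∃ f : Λ, ∀ (I : Ideal U) (hI : I ∈ F), E.ev I hI f = Ideal.Quotient.mk I y := by
  choose c hc using fun n => E.surj (C.I n) (C.mem n) (Ideal.Quotient.mk _ y)
  obtain ⟨L, hL, -⟩ := exists_limit_of_filtration (maximalIdeal Λ)
    (fun n => E.K (C.I n) (C.mem n)) C.pow_le (C.K_le_sup hloc hup) c
    (fun n => by
      rw [mem_K, map_sub, hc n, E.ev_eq_mk_of_le (C.mem (n + 1)) (C.mem n) (C.succ_le n) (hc (n + 1)),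
        sub_self]) 0 (c 0) (by simp)
  refine ⟨L, fun I hI => ?_⟩
  obtain ⟨n, hn⟩ := C.cofinal I hI
  refine E.ev_eq_mk_of_le (C.mem n) hI hn ?_
  have := hL n
  rw [zero_add, mem_K, map_sub, sub_eq_zero] at this
  rw [this, hc]

end Chain

/-- the common kernel. -/
def J : Ideal Λ := ⨅ (I : Ideal U) (hI : I ∈ F), E.K I hI

theorem mem_J {f : Λ} : f ∈ E.J ↔ ∀ (I : Ideal U) (hI : I ∈ F), E.ev I hI f = 0 := by
  simp only [J, Submodule.mem_iInf]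
  rfl

theorem J_le (I : Ideal U) (hI : I ∈ F) : E.J ≤ E.K I hI := fun _ hf => E.mem_J.mp hf I hI

theorem Chain.K_le_J_sup {E : EvSys Λ U F} (C : E.Chain) [IsPrecomplete (maximalIdeal Λ) Λ]
    (hloc : ∀ I ∈ F, IsLocalRing (U ⧸ I))
    (hup : ∀ I ∈ F, ∀ J : Ideal U, I ≤ J → J ≠ ⊤ → J ∈ F) (n : ℕ) :
    E.K (C.I n) (C.mem n) ≤ E.J ⊔ maximalIdeal Λ ^ (n + 1) := by
  intro f₀ hf₀
  obtain ⟨L, hL, hL'⟩ := exists_limit_of_filtration (maximalIdeal Λ)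
    (fun n => E.K (C.I n) (C.mem n)) C.pow_le (C.K_le_sup hloc hup) (fun _ => 0)
    (fun n => by simp) n f₀ (by simpa using hf₀)
  have hLJ : L ∈ E.J := by
    rw [mem_J]
    intro I hI
    obtain ⟨N, hN⟩ := C.cofinal I hI
    have h1 := hL N
    rw [sub_zero] at h1
    exact E.K_mono (C.mem (n + N)) hI ((C.anti (Nat.le_add_left N n)).trans hN) h1
  have : f₀ = L + -(L - f₀) := by ring
  rw [this]
  exact Submodule.add_mem_sup hLJ (neg_mem hL')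

end EvSys

end Fermat.Agent.S53lib
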