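import Fermat.Agent.S53.P2c
import Fermat.Prelude.Thm_IsLocalRing_isAdicComplete_of_module_finite
set_option autoImplicit false
set_option linter.unusedSectionVars false

namespace Fermat.Agent.S53lib

open IsLocalRing

namespace EvSys

variable {Λ U : Type} [CommRing Λ] [IsLocalRing Λ] [CommRing U] {F : Set (Ideal U)}

theorem exists_proRep_of_evSys (𝒪 : Type) [CommRing 𝒪] [IsLocalRing 𝒪]
    [IsNoetherianRing Λ] [IsAdicComplete (maximalIdeal Λ) Λ]
    [Algebra 𝒪 Λ] [Algebra 𝒪 U] [IsLocalHom (algebraMap 𝒪 Λ)]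
    (E : EvSys Λ U F)
    (hres : Function.Surjective (residue Λ ∘ algebraMap 𝒪 Λ))
    (halg : ∀ I hI (r : 𝒪),
      E.ev I hI (algebraMap 𝒪 Λ r) = Ideal.Quotient.mk I (algebraMap 𝒪 U r))
    (hfin : ∀ n, Finite (Λ ⧸ maximalIdeal Λ ^ n))
    (hne : F.Nonempty) (hloc : ∀ I ∈ F, IsLocalRing (U ⧸ I))
    (hinf : ∀ I ∈ F, ∀ J ∈ F, I ⊓ J ∈ F)
    (hup : ∀ I ∈ F, ∀ J : Ideal U, I ≤ J → J ≠ ⊤ → J ∈ F) :
    ∃ (R : Type) (_ : CommRing R) (_ : IsLocalRing R) (_ : IsNoetherianRing R)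
      (_ : IsAdicComplete (maximalIdeal R) R) (_ : Algebra 𝒪 R) (_ : IsLocalHom (algebraMap 𝒪 R))
      (u : U →ₐ[𝒪] R), Function.Surjective (residue R ∘ algebraMap 𝒪 R) ∧
      (∀ n : ℕ, (maximalIdeal R ^ (n + 1)).comap u ∈ F) ∧
      (∀ (n : ℕ) (y : R), ∃ z : U, y - u z ∈ maximalIdeal R ^ n) ∧
      (∀ I ∈ F, ∃ n : ℕ, (maximalIdeal R ^ n).comap u ≤ I) := by
  obtain ⟨C⟩ := E.exists_chain hfin hne hloc hinf hup
  have hJne : E.J ≠ ⊤ := by
    obtain ⟨I, hI⟩ := hne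
    have := hloc I hI
    intro h
    have h1 : (1 : Λ) ∈ E.J := h ▸ Submodule.mem_top
    have := E.mem_J.mp h1 I hI
    rw [map_one] at this
    exact one_ne_zero this
  have hnt : Nontrivial (Λ ⧸ E.J) := Ideal.Quotient.nontrivial_iff.mpr hJne
  have hlocR : IsLocalRing (Λ ⧸ E.J) :=
    IsLocalRing.of_surjective' (Ideal.Quotient.mk E.J) Ideal.Quotient.mk_surjective
  have hlh : IsLocalHom (Ideal.Quotient.mk E.J) :=
    IsLocalHom.of_surjective _ Ideal.Quotient.mk_surjective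
  have hlh' : IsLocalHom (algebraMap Λ (Λ ⧸ E.J)) := hlh
  have hcomp : IsAdicComplete (maximalIdeal (Λ ⧸ E.J)) (Λ ⧸ E.J) :=
    IsLocalRing.isAdicComplete_of_module_finite (𝒪 := Λ)
  have hmax : ∀ n, maximalIdeal (Λ ⧸ E.J) ^ n =
      (maximalIdeal Λ ^ n).map (Ideal.Quotient.mk E.J) := by
    intro n
    rw [Ideal.map_pow, map_maximalIdeal_of_surjective _ Ideal.Quotient.mk_surjective]
  have hmem : ∀ (n : ℕ) (f : Λ), Ideal.Quotient.mk E.J f ∈ maximalIdeal (Λ ⧸ E.J) ^ n ↔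
      f ∈ E.J ⊔ maximalIdeal Λ ^ n := by
    intro n f
    rw [hmax, ← Ideal.mem_comap, Ideal.comap_map_of_surjective _ Ideal.Quotient.mk_surjective,
      ← RingHom.ker_eq_comap_bot, Ideal.mk_ker, sup_comm]
  choose rep hrep using C.exists_rel hloc hup
  have huniq : ∀ (f : Λ) (y : U), (∀ I hI, E.ev I hI f = Ideal.Quotient.mk I y) →
      Ideal.Quotient.mk E.J f = Ideal.Quotient.mk E.J (rep y) := by
    intro f y h
    rw [Ideal.Quotient.eq, mem_J]
    intro I hI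
    rw [map_sub, h, hrep, sub_self]
  let u : U →ₐ[𝒪] Λ ⧸ E.J :=
    { toFun := fun y => Ideal.Quotient.mk E.J (rep y)
      map_one' := (huniq 1 1 (fun I hI => by simp)).symm
      map_mul' := fun a b => by
        rw [← map_mul]
        exact (huniq _ _ (fun I hI => by rw [map_mul, hrep, hrep, map_mul])).symm
      map_zero' := (huniq 0 0 (fun I hI => by simp)).symm
      map_add' := fun a b => by
        rw [← map_add]
        exact (huniq _ _ (fun I hI => by rw [map_add, hrep, hrep, map_add])).symm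
      commutes' := fun r => (huniq (algebraMap 𝒪 Λ r) _ (fun I hI => halg I hI r)).symm }
  have hu : ∀ y, u y = Ideal.Quotient.mk E.J (rep y) := fun _ => rfl
  have hlhO : IsLocalHom (algebraMap 𝒪 (Λ ⧸ E.J)) := by
    have : algebraMap 𝒪 (Λ ⧸ E.J) = (Ideal.Quotient.mk E.J).comp (algebraMap 𝒪 Λ) := rfl
    rw [this]
    exact RingHom.isLocalHom_comp _ _
  refine ⟨Λ ⧸ E.J, inferInstance, hlocR, inferInstance, hcomp, inferInstance, hlhO, u,
    ?_, ?_, ?_, ?_⟩
  · intro z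
    obtain ⟨z, rfl⟩ := residue_surjective z
    obtain ⟨f, rfl⟩ := Ideal.Quotient.mk_surjective z
    obtain ⟨r, hr⟩ := hres (residue Λ f)
    refine ⟨r, ?_⟩
    have h1 : algebraMap 𝒪 Λ r - f ∈ maximalIdeal Λ := by
      rw [← residue_eq_zero_iff, map_sub, sub_eq_zero]
      exact hr
    have h2 : Ideal.Quotient.mk E.J (algebraMap 𝒪 Λ r - f) ∈ maximalIdeal (Λ ⧸ E.J) := by
      have := (hmem 1 (algebraMap 𝒪 Λ r - f)).mpr (by
        rw [pow_one]; exact Submodule.mem_sup_right h1)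
      rwa [pow_one] at this
    rw [← residue_eq_zero_iff, map_sub, map_sub, sub_eq_zero] at h2
    exact h2
  · intro n
    refine hup _ (C.mem n) _ ?_ ?_
    · intro y hy
      rw [Ideal.mem_comap]
      change u y ∈ _
      rw [hu, hmem]
      apply C.K_le_J_sup hloc hup n
      rw [mem_K, hrep, Ideal.Quotient.eq_zero_iff_mem]
      exact hy
    · intro h
      have h1 : (1 : U) ∈ (maximalIdeal (Λ ⧸ E.J) ^ (n + 1)).comap u := h ▸ Submodule.mem_top
      rw [Ideal.mem_comap, map_one] at h1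
      have h2 := Ideal.pow_le_self (Nat.succ_ne_zero n) h1
      exact (Ideal.ne_top_iff_one _).mp (Ideal.IsPrime.ne_top inferInstance) h2
  · intro n y
    obtain ⟨f, rfl⟩ := Ideal.Quotient.mk_surjective y
    cases n with
    | zero => exact ⟨0, by simp⟩
    | succ n =>
      obtain ⟨z, hz⟩ := Ideal.Quotient.mk_surjective (E.ev (C.I n) (C.mem n) f)
      refine ⟨z, ?_⟩
      rw [hu, ← map_sub, hmem]
      apply C.K_le_J_sup hloc hup n
      rw [mem_K, map_sub, hrep, hz, sub_self]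
  · intro I hI
    obtain ⟨n, hn⟩ := E.nil I hI
    refine ⟨n, fun y hy => ?_⟩
    rw [Ideal.mem_comap] at hy
    change u y ∈ _ at hy
    rw [hu, hmem] at hy
    have h1 : rep y ∈ E.K I hI := (sup_le (E.J_le I hI) hn) hy
    rw [mem_K, hrep, Ideal.Quotient.eq_zero_iff_mem] at h1
    exact h1

end EvSys

end Fermat.Agent.S53lib
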