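import Fermat.Agent.S53.Dual
set_option autoImplicit false
set_option linter.unusedSectionVars false

namespace Fermat.Agent.S53lib

open IsLocalRing GaloisRep

variable {𝒪 : Type} [CommRing 𝒪] [IsLocalRing 𝒪]

attribute [local instance] algDual

variable [Finite (ResidueField 𝒪)] {Dt : NData 𝒪}
  {𝒟 : ∀ ⦃A : Type⦄ [CommRing A] [IsLocalRing A] [Algebra 𝒪 A], GaloisRepAdic A → Prop}
  {ρbar : ResidualGaloisRep (ResidueField 𝒪)}

theorem finite_testLifts_dual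
    (hN : HasMatRes ρbar (fun σ => (Dt.ρt σ).map (residue 𝒪)))
    (hfin : TangentFinite 𝒪 ρbar 𝒟) :
    Finite {r : Gal → M2 (DualNumber (ResidueField 𝒪)) //
      IsTestLift Dt 𝒟 (DualNumber (ResidueField 𝒪)) r} := by
  unfold TangentFinite at hfin
  have := (dual_testAlgebra (𝒪 := 𝒪)).isLocalHom
  have key : ∀ r : {r : Gal → M2 (DualNumber (ResidueField 𝒪)) //
      IsTestLift Dt 𝒟 (DualNumber (ResidueField 𝒪)) r},
      ∃ ρ : GaloisRepAdic (DualNumber (ResidueField 𝒪)), HasMat ρ r.1 ∧ 𝒟 ρ ∧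
        ρ.residual.IsEquiv (ρbar.baseChangeAlong
          ((residue (DualNumber (ResidueField 𝒪))).comp
            (algebraMap (ResidueField 𝒪) (DualNumber (ResidueField 𝒪))))) := by
    rintro ⟨r, hr⟩
    obtain ⟨ρ, h1, h2⟩ := hr.type
    refine ⟨ρ, h1, h2, h1.residual_isEquiv hN _ fun σ i j => ?_⟩
    exact hr.lifts σ i j
  choose ρ h1 h2 h3 using key
  refine @Finite.of_injective _ _ hfin (fun r => Quotient.mk _ ⟨ρ r, h2 r, h3 r⟩) ?_
  intro r r' hrr'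
  have he : (ρ r).IsEquiv (ρ r') := Quotient.exact hrr'
  exact Subtype.ext (NData.eq_of_isEquiv (h1 r) (h1 r') he r.2.lifts r'.2.lifts r.2.norm r'.2.norm)

theorem residueField_testAlgebra : IsArtinianTestAlgebra 𝒪 (ResidueField 𝒪) where
  isLocalHom := inferInstanceAs (IsLocalHom (residue 𝒪))
  residue_surjective := (residue_surjective (R := ResidueField 𝒪)).comp
    (residue_surjective (R := 𝒪))
  isArtinian := inferInstance

theorem isTestLift_residue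
    (hN : HasMatRes ρbar (fun σ => (Dt.ρt σ).map (residue 𝒪)))
    (hbar : 𝒟 (GaloisRepAdic.ofResidualGaloisRep ρbar)) :
    IsTestLift Dt 𝒟 (ResidueField 𝒪) (fun σ => (Dt.ρt σ).map (residue 𝒪)) := by
  have e : ∀ w : Gal →₀ 𝒪, lin w (fun σ => (Dt.ρt σ).map (residue 𝒪)) =
      (residue 𝒪).mapMatrix (w.sum fun g t => t • Dt.ρt g) := fun w =>
    lin_map (Algebra.ofId 𝒪 (ResidueField 𝒪)) w Dt.ρt
  refine ⟨residueField_testAlgebra, fun σ i j => rfl, ⟨?_, ?_, ?_⟩,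
    GaloisRepAdic.ofResidualGaloisRep ρbar, hN, hbar⟩
  · rw [e, Dt.ha]; simp
  · rw [e, Dt.ha]; simp
  · rw [e, Dt.hc]; simp

theorem adm_mU (h𝒟 : IsDeformationCondition 𝒪 𝒟)
    (hN : HasMatRes ρbar (fun σ => (Dt.ρt σ).map (residue 𝒪)))
    (hbar : 𝒟 (GaloisRepAdic.ofResidualGaloisRep ρbar)) : Adm Dt 𝒟 (mU Dt) :=
  Adm.ker h𝒟 (isTestLift_residue hN hbar)

theorem adm_finset_inf (h𝒟 : IsDeformationCondition 𝒪 𝒟) {ι : Type} (s : Finset ι)
    (f : ι → Ideal (UU 𝒪)) (I : Ideal (UU 𝒪)) (hI : Adm Dt 𝒟 I) (hf : ∀ i, Adm Dt 𝒟 (f i)) :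
    Adm Dt 𝒟 (I ⊓ s.inf f) := by
  classical
  induction s using Finset.induction_on with
  | empty => simpa using hI
  | insert a s _ ih =>
    rw [Finset.inf_insert, ← inf_assoc, inf_comm I, inf_assoc]
    exact (hf a).inf h𝒟 ih

theorem exists_I0 (h𝒟 : IsDeformationCondition 𝒪 𝒟)
    (hN : HasMatRes ρbar (fun σ => (Dt.ρt σ).map (residue 𝒪)))
    (hbar : 𝒟 (GaloisRepAdic.ofResidualGaloisRep ρbar))
    (hfin : TangentFinite 𝒪 ρbar 𝒟) :
    ∃ I₀, Adm Dt 𝒟 I₀ ∧ ∀ I, Adm Dt 𝒟 I →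
      I₀ ≤ I ⊔ mU Dt ^ 2 ⊔ Ideal.map MvPolynomial.C (maximalIdeal 𝒪) := by
  have := finite_testLifts_dual (Dt := Dt) hN hfin
  have := Fintype.ofFinite {r : Gal → M2 (DualNumber (ResidueField 𝒪)) //
      IsTestLift Dt 𝒟 (DualNumber (ResidueField 𝒪)) r}
  let f : {r : Gal → M2 (DualNumber (ResidueField 𝒪)) //
      IsTestLift Dt 𝒟 (DualNumber (ResidueField 𝒪)) r} → Ideal (UU 𝒪) :=
    fun r => RingHom.ker (homOf r.1 : UU 𝒪 →ₐ[𝒪] DualNumber (ResidueField 𝒪))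
  refine ⟨mU Dt ⊓ Finset.univ.inf f,
    adm_finset_inf h𝒟 _ f _ (adm_mU h𝒟 hN hbar) (fun r => Adm.ker h𝒟 r.2), fun I hI u hu => ?_⟩
  set I' := I ⊔ mU Dt ^ 2 ⊔ Ideal.map MvPolynomial.C (maximalIdeal 𝒪) with hI'
  have hle : I' ≤ mU Dt := by
    refine sup_le (sup_le hI.good.1 (Ideal.pow_le_self two_ne_zero)) ?_
    rw [Ideal.map_le_iff_le_comap]
    intro c hc
    exact (C_mem_mU_iff c).mpr hc
  have hI'adm : Adm Dt 𝒟 I' := hI.of_le h𝒟 (le_sup_left.trans le_sup_left)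
    (fun h => (mU_isMaximal Dt).ne_top (top_le_iff.mp (h ▸ hle)))
  have gI' := hI'adm.good
  obtain ⟨_, hT⟩ := hI'adm
  by_contra hu'
  have humU : u ∈ mU Dt := hu.1
  let ev : (UU 𝒪 ⧸ I') →ₐ[𝒪] ResidueField 𝒪 := Ideal.Quotient.liftₐ I' (evk Dt) (fun a ha => hle ha)
  obtain ⟨φ, hφ, hφu⟩ := exists_hom_dual ev
    (fun a => by
      obtain ⟨v, rfl⟩ := Ideal.Quotient.mk_surjective a
      rw [gI'.mem_maximalIdeal_iff]
      rfl)
    (fun a b ha hb => by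
      obtain ⟨v, rfl⟩ := Ideal.Quotient.mk_surjective a
      obtain ⟨w, rfl⟩ := Ideal.Quotient.mk_surjective b
      rw [gI'.mem_maximalIdeal_iff] at ha hb
      rw [← map_mul, Ideal.Quotient.eq_zero_iff_mem]
      apply (le_sup_left : I ⊔ mU Dt ^ 2 ≤ I')
      apply (le_sup_right : mU Dt ^ 2 ≤ I ⊔ mU Dt ^ 2)
      rw [pow_two]
      exact Ideal.mul_mem_mul ha hb)
    (fun c hc => by
      show Ideal.Quotient.mk I' (MvPolynomial.C c) = 0
      rw [Ideal.Quotient.eq_zero_iff_mem]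
      exact (le_sup_right : _ ≤ I') (Ideal.mem_map_of_mem _ hc))
    (Ideal.Quotient.mk I' u) ((gI'.mem_maximalIdeal_iff u).mpr humU)
    (fun h => hu' (Ideal.Quotient.eq_zero_iff_mem.mp h))
  have hlift := hT.map h𝒟 dual_testAlgebra φ hφ
  have h1 : u ∈ f ⟨_, hlift⟩ := (Finset.inf_le (Finset.mem_univ _) : Finset.univ.inf f ≤ _) hu.2
  have h2 : homOf (fun σ => (taut I' σ).map φ) u = 0 := h1
  rw [← comp_homOf, homOf_taut] at h2
  exact hφu h2

end Fermat.Agent.S53lib
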