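import Fermat.Agent.S53.Normalized
set_option autoImplicit false
set_option linter.unusedSectionVars false

namespace Fermat.Agent.S53lib

open IsLocalRing GaloisRep

section finlevel
variable {A : Type} [CommRing A] [IsLocalRing A]

/-- `r` is trivial on an open subgroup. -/
def FinLevel (r : Gal → M2 A) : Prop :=
  ∃ L : IntermediateField ℚ (AlgebraicClosure ℚ), FiniteDimensional ℚ L ∧
    ∀ σ : Gal, (∀ x ∈ L, σ x = x) → r σ = 1

theorem FinLevel.matCont {r : Gal → M2 A} (h : FinLevel r) : MatCont r := by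
  obtain ⟨L, hL, h1⟩ := h
  intro n
  refine ⟨L, hL, fun σ hσ i j => ?_⟩
  rw [h1 σ hσ, sub_self]
  exact Ideal.zero_mem _

theorem MatCont.finLevel [IsArtinianRing A] {r : Gal → M2 A} (h : MatCont r) : FinLevel r := by
  obtain ⟨n, hn⟩ := (isArtinianRing_iff_isNilpotent_maximalIdeal A).mp ‹_›
  obtain ⟨L, hL, h1⟩ := h n
  refine ⟨L, hL, fun σ hσ => ?_⟩
  ext i j
  have := h1 σ hσ i j
  rw [hn] at this
  have h0 : (r σ - 1) i j = 0 := this
  rw [Matrix.sub_apply, sub_eq_zero] at h0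
  exact h0

theorem FinLevel.sup {B P : Type} [CommRing B] [CommRing P]
    {r : Gal → M2 P} (pA : P →+* A) (pB : P →+* B)
    (hinj : Function.Injective fun x => (pA x, pB x))
    (hA : ∃ L : IntermediateField ℚ (AlgebraicClosure ℚ), FiniteDimensional ℚ L ∧
      ∀ σ : Gal, (∀ x ∈ L, σ x = x) → (r σ).map pA = 1)
    (hB : ∃ L : IntermediateField ℚ (AlgebraicClosure ℚ), FiniteDimensional ℚ L ∧
      ∀ σ : Gal, (∀ x ∈ L, σ x = x) → (r σ).map pB = 1) :
    ∃ L : IntermediateField ℚ (AlgebraicClosure ℚ), FiniteDimensional ℚ L ∧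
      ∀ σ : Gal, (∀ x ∈ L, σ x = x) → r σ = 1 := by
  obtain ⟨L₁, hL₁, h1⟩ := hA
  obtain ⟨L₂, hL₂, h2⟩ := hB
  refine ⟨L₁ ⊔ L₂, IntermediateField.finiteDimensional_sup L₁ L₂, fun σ hσ => ?_⟩
  have e1 := h1 σ fun x hx => hσ x ((le_sup_left : L₁ ≤ L₁ ⊔ L₂) hx)
  have e2 := h2 σ fun x hx => hσ x ((le_sup_right : L₂ ≤ L₁ ⊔ L₂) hx)
  ext i j
  apply hinj
  have a1 := congrFun (congrFun e1 i) j
  have a2 := congrFun (congrFun e2 i) j
  simp only [Matrix.map_apply] at a1 a2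
  by_cases hij : i = j
  · subst hij; simp [a1, a2]
  · simp [a1, a2, Matrix.one_apply_ne hij]

end finlevel

variable {𝒪 : Type} [CommRing 𝒪] [IsLocalRing 𝒪]

structure IsTestLift (Dt : NData 𝒪)
    (𝒟 : ∀ ⦃A : Type⦄ [CommRing A] [IsLocalRing A] [Algebra 𝒪 A], GaloisRepAdic A → Prop)
    (A : Type) [CommRing A] [IsLocalRing A] [Algebra 𝒪 A] (r : Gal → M2 A) : Prop where
  test : IsArtinianTestAlgebra 𝒪 A
  lifts : Dt.Lifts r
  norm : Dt.Normalized r
  type : ∃ ρ : GaloisRepAdic A, HasMat ρ r ∧ 𝒟 ρ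

variable {Dt : NData 𝒪}
  {𝒟 : ∀ ⦃A : Type⦄ [CommRing A] [IsLocalRing A] [Algebra 𝒪 A], GaloisRepAdic A → Prop}

theorem IsTestLift.map (h𝒟 : IsDeformationCondition 𝒪 𝒟)
    {A B : Type} [CommRing A] [IsLocalRing A] [Algebra 𝒪 A]
    [CommRing B] [IsLocalRing B] [Algebra 𝒪 B] {r : Gal → M2 A}
    (h : IsTestLift Dt 𝒟 A r) (hB : IsArtinianTestAlgebra 𝒪 B) (φ : A →ₐ[𝒪] B)
    (hφ : IsLocalHom (φ : A →+* B)) : IsTestLift Dt 𝒟 B (fun σ => (r σ).map φ) := by
  obtain ⟨ρ, hm, hd⟩ := h.type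
  exact ⟨hB, h.lifts.map φ, h.norm.map φ, ρ.baseChangeAlong φ hφ, hm.baseChangeAlong (φ : A →+* B) hφ,
    h𝒟.baseChangeAlong h.test hB φ hφ hd⟩

theorem IsTestLift.forall_type (h𝒟 : IsDeformationCondition 𝒪 𝒟)
    {A : Type} [CommRing A] [IsLocalRing A] [Algebra 𝒪 A] {r : Gal → M2 A}
    (h : IsTestLift Dt 𝒟 A r) {ρ : GaloisRepAdic A} (hρ : HasMat ρ r) : 𝒟 ρ := by
  obtain ⟨ρ', hm, hd⟩ := h.type
  exact h𝒟.of_isEquiv h.test (hm.isEquiv hρ) hd

theorem lifts_of_map {A B : Type} [CommRing A] [IsLocalRing A] [Algebra 𝒪 A]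
    [CommRing B] [IsLocalRing B] [Algebra 𝒪 B] {r : Gal → M2 A} (φ : A →ₐ[𝒪] B)
    (hφ : IsLocalHom (φ : A →+* B)) (h : Dt.Lifts (fun σ => (r σ).map φ)) : Dt.Lifts r := by
  intro σ i j
  apply (ResidueField.map (φ : A →+* B)).injective
  rw [ResidueField.map_residue, ResidueField.map_residue]
  simpa using h σ i j

theorem IsTestLift.of_injective (h𝒟 : IsDeformationCondition 𝒪 𝒟)
    {A B : Type} [CommRing A] [IsLocalRing A] [Algebra 𝒪 A]
    [CommRing B] [IsLocalRing B] [Algebra 𝒪 B] (hA : IsArtinianTestAlgebra 𝒪 A)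
    (φ : A →ₐ[𝒪] B) (hφ : IsLocalHom (φ : A →+* B)) (hinj : Function.Injective φ)
    {r : Gal → M2 A} (h : IsTestLift Dt 𝒟 B (fun σ => (r σ).map φ)) : IsTestLift Dt 𝒟 A r := by
  have hminj : Function.Injective (fun M : M2 A => M.map φ) := Matrix.map_injective hinj
  obtain ⟨ρB, hm, hd⟩ := h.type
  have h1 : r 1 = 1 := by
    apply hminj
    show (r 1).map φ = (1 : M2 A).map φ
    rw [hm.map_one]
    exact (φ.mapMatrix.map_one).symm
  have hmul : ∀ g g', r (g * g') = r g * r g' := fun g g' => by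
    apply hminj
    show (r (g * g')).map φ = (r g * r g').map φ
    rw [hm.map_mul]
    exact (φ.mapMatrix.map_mul _ _).symm
  have hfl : FinLevel r := by
    have := h.test.isArtinian
    obtain ⟨L, hL, h2⟩ := hm.cont.finLevel
    refine ⟨L, hL, fun σ hσ => ?_⟩
    apply hminj
    show (r σ).map φ = (1 : M2 A).map φ
    exact (h2 σ hσ).trans (φ.mapMatrix.map_one).symm
  obtain ⟨ρ, hρ⟩ := exists_of_mat r h1 hmul hfl.matCont
  refine ⟨hA, lifts_of_map φ hφ h.lifts, ⟨?_, ?_, ?_⟩, ρ, hρ, ?_⟩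
  · apply hinj
    have := h.norm.1
    rw [lin_map, Matrix.map_apply] at this
    rw [this, map_zero]
  · apply hinj
    have := h.norm.2.1
    rw [lin_map, Matrix.map_apply] at this
    rw [this, map_zero]
  · apply hinj
    have := h.norm.2.2
    rw [lin_map, Matrix.map_apply] at this
    rw [this, map_one]
  · exact h𝒟.of_baseChangeAlong_injective hA h.test φ hφ hinj
      (h.forall_type h𝒟 (hρ.baseChangeAlong (φ : A →+* B) hφ))

theorem IsTestLift.of_fibre (h𝒟 : IsDeformationCondition 𝒪 𝒟)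
    {A B C P : Type} [CommRing A] [IsLocalRing A] [Algebra 𝒪 A]
    [CommRing B] [IsLocalRing B] [Algebra 𝒪 B] [CommRing C] [IsLocalRing C] [Algebra 𝒪 C]
    [CommRing P] [IsLocalRing P] [Algebra 𝒪 P]
    (hC : IsArtinianTestAlgebra 𝒪 C) (hP : IsArtinianTestAlgebra 𝒪 P)
    (f : A →ₐ[𝒪] C) (g : B →ₐ[𝒪] C) (pA : P →ₐ[𝒪] A) (pB : P →ₐ[𝒪] B)
    (hpA : IsLocalHom (pA : P →+* A)) (hpB : IsLocalHom (pB : P →+* B))
    (hcomm : f.comp pA = g.comp pB)
    (hinj : Function.Injective (fun x => (pA x, pB x)))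
    (hsurj : ∀ a b, f a = g b → ∃ x, pA x = a ∧ pB x = b)
    {r : Gal → M2 P} (hrA : IsTestLift Dt 𝒟 A (fun σ => (r σ).map pA))
    (hrB : IsTestLift Dt 𝒟 B (fun σ => (r σ).map pB)) : IsTestLift Dt 𝒟 P r := by
  have hminj : ∀ M M' : M2 P, M.map pA = M'.map pA → M.map pB = M'.map pB → M = M' := by
    intro M M' h1 h2
    ext i j
    apply hinj
    have a1 := congrFun (congrFun h1 i) j
    have a2 := congrFun (congrFun h2 i) j
    simp only [Matrix.map_apply] at a1 a2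
    simp [a1, a2]
  obtain ⟨ρA, hmA, hdA⟩ := hrA.type
  obtain ⟨ρB, hmB, hdB⟩ := hrB.type
  have h1 : r 1 = 1 := by
    apply hminj
    · rw [hmA.map_one]; exact (pA.mapMatrix.map_one).symm
    · rw [hmB.map_one]; exact (pB.mapMatrix.map_one).symm
  have hmul : ∀ g g', r (g * g') = r g * r g' := fun g g' => by
    apply hminj
    · rw [hmA.map_mul]; exact (pA.mapMatrix.map_mul _ _).symm
    · rw [hmB.map_mul]; exact (pB.mapMatrix.map_mul _ _).symm
  have hfl : FinLevel r := by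
    have := hrA.test.isArtinian
    have := hrB.test.isArtinian
    exact FinLevel.sup (pA : P →+* A) (pB : P →+* B) hinj hmA.cont.finLevel hmB.cont.finLevel
  obtain ⟨ρ, hρ⟩ := exists_of_mat r h1 hmul hfl.matCont
  refine ⟨hP, lifts_of_map pA hpA hrA.lifts, ⟨?_, ?_, ?_⟩, ρ, hρ, ?_⟩
  · apply hinj
    have e1 := hrA.norm.1
    have e2 := hrB.norm.1
    rw [lin_map, Matrix.map_apply] at e1 e2
    simp [e1, e2]
  · apply hinj
    have e1 := hrA.norm.2.1
    have e2 := hrB.norm.2.1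
    rw [lin_map, Matrix.map_apply] at e1 e2
    simp [e1, e2]
  · apply hinj
    have e1 := hrA.norm.2.2
    have e2 := hrB.norm.2.2
    rw [lin_map, Matrix.map_apply] at e1 e2
    simp [e1, e2]
  · exact h𝒟.of_fibreProduct hrA.test hrB.test hC hP f g pA pB hpA hpB hcomm hinj hsurj
      (hrA.forall_type h𝒟 (hρ.baseChangeAlong (pA : P →+* A) hpA))
      (hrB.forall_type h𝒟 (hρ.baseChangeAlong (pB : P →+* B) hpB))

end Fermat.Agent.S53lib
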