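import Fermat.Agent.S53.Data
set_option autoImplicit false
set_option linter.unusedSectionVars false

namespace Fermat.Agent.S53lib

open IsLocalRing GaloisRep

theorem eq_zero_of_forall_mem_pow {A : Type} [CommRing A] [IsLocalRing A] [IsNoetherianRing A]
    (x : A) (h : ∀ n, x ∈ maximalIdeal A ^ n) : x = 0 := by
  have h1 : x ∈ ⨅ i, maximalIdeal A ^ i := (Submodule.mem_iInf _).mpr h
  rw [Ideal.iInf_pow_eq_bot_of_isLocalRing _ (Ideal.IsPrime.ne_top inferInstance)] at h1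
  exact h1

theorem map_pow_le_of_isLocalHom {A B : Type} [CommRing A] [IsLocalRing A] [CommRing B]
    [IsLocalRing B] (φ : A →+* B) [IsLocalHom φ] (n : ℕ) {x : A} (hx : x ∈ maximalIdeal A ^ n) :
    φ x ∈ maximalIdeal B ^ n := by
  have h1 : (maximalIdeal A).map φ ≤ maximalIdeal B :=
    ((IsLocalRing.local_hom_TFAE φ).out 0 2).mp ‹IsLocalHom φ›
  have h2 := Ideal.mem_map_of_mem φ hx
  rw [Ideal.map_pow] at h2
  exact Ideal.pow_right_mono h1 n h2

section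
variable {𝒪 : Type} [CommRing 𝒪] [IsLocalRing 𝒪] [Finite (ResidueField 𝒪)] {Dt : NData 𝒪}
  {𝒟 : ∀ ⦃A : Type⦄ [CommRing A] [IsLocalRing A] [Algebra 𝒪 A], GaloisRepAdic A → Prop}
  {R : Type} [CommRing R] [IsLocalRing R] [IsNoetherianRing R]
  [IsAdicComplete (maximalIdeal R) R] [Algebra 𝒪 R] [IsLocalHom (algebraMap 𝒪 R)]
  {u : UU 𝒪 →ₐ[𝒪] R}

theorem u_eq_zero (hR1 : ∀ n : ℕ, Adm Dt 𝒟 ((maximalIdeal R ^ (n + 1)).comap u))
    (w : UU 𝒪) (h : ∀ I, Adm Dt 𝒟 I → w ∈ I) : u w = 0 := by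
  apply eq_zero_of_forall_mem_pow
  intro n
  cases n with
  | zero => simp
  | succ n => exact h _ (hR1 n)

theorem u_mem_max_iff (hR1 : ∀ n : ℕ, Adm Dt 𝒟 ((maximalIdeal R ^ (n + 1)).comap u))
    (w : UU 𝒪) : u w ∈ maximalIdeal R ↔ w ∈ mU Dt := by
  have g := (hR1 0).good
  constructor
  · intro hw
    apply g.1
    simpa using hw
  · intro hw
    obtain ⟨N, hN⟩ := g.2
    have h1 := hN (Ideal.pow_mem_pow hw N)
    have h2 : u w ^ N ∈ maximalIdeal R := by simpa using h1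
    exact Ideal.IsPrime.mem_of_pow_mem inferInstance N h2

theorem map_u_eq (hR1 : ∀ n : ℕ, Adm Dt 𝒟 ((maximalIdeal R ^ (n + 1)).comap u))
    (W W' : M2 (UU 𝒪))
    (h : ∀ I, Adm Dt 𝒟 I → W.map (Ideal.Quotient.mkₐ 𝒪 I) = W'.map (Ideal.Quotient.mkₐ 𝒪 I)) :
    W.map u = W'.map u := by
  ext i j
  rw [Matrix.map_apply, Matrix.map_apply, ← sub_eq_zero, ← map_sub]
  apply u_eq_zero hR1
  intro I hI
  have := congrFun (congrFun (h I hI) i) j
  simp only [Matrix.map_apply, Ideal.Quotient.mkₐ_eq_mk] at this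
  exact (Ideal.Quotient.eq).mp this

/-- the universal matrices -/
noncomputable def rU (u : UU 𝒪 →ₐ[𝒪] R) : Gal → M2 R := fun σ => (gen 𝒪 σ).map u

theorem rU_one (hR1 : ∀ n : ℕ, Adm Dt 𝒟 ((maximalIdeal R ^ (n + 1)).comap u)) : rU u 1 = 1 := by
  have := map_u_eq hR1 (gen 𝒪 1) 1 (fun I hI => by
    obtain ⟨_, hT⟩ := hI
    obtain ⟨ρ, hm, -⟩ := hT.type
    exact hm.map_one.trans ((Ideal.Quotient.mkₐ 𝒪 I).mapMatrix.map_one).symm)
  exact this.trans (u.mapMatrix.map_one)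

theorem rU_mul (hR1 : ∀ n : ℕ, Adm Dt 𝒟 ((maximalIdeal R ^ (n + 1)).comap u)) (g g' : Gal) :
    rU u (g * g') = rU u g * rU u g' := by
  have := map_u_eq hR1 (gen 𝒪 (g * g')) (gen 𝒪 g * gen 𝒪 g') (fun I hI => by
    obtain ⟨_, hT⟩ := hI
    obtain ⟨ρ, hm, -⟩ := hT.type
    exact (hm.map_mul g g').trans ((Ideal.Quotient.mkₐ 𝒪 I).mapMatrix.map_mul _ _).symm)
  exact this.trans (u.mapMatrix.map_mul _ _)

theorem gen_sub_C_mem_mU (σ : Gal) (i j : Fin 2) :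
    gen 𝒪 σ i j - MvPolynomial.C (Dt.ρt σ i j) ∈ mU Dt := by
  show evk Dt _ = 0
  rw [map_sub, evk_C]
  simp [evk, homOf, gen]

theorem rU_lifts (hR1 : ∀ n : ℕ, Adm Dt 𝒟 ((maximalIdeal R ^ (n + 1)).comap u)) :
    Dt.Lifts (rU u) := by
  intro σ i j
  have h1 := (u_mem_max_iff hR1 _).mpr (gen_sub_C_mem_mU (Dt := Dt) σ i j)
  rw [← residue_eq_zero_iff, map_sub, map_sub, sub_eq_zero] at h1
  rw [rU, Matrix.map_apply, h1]
  congr 1
  exact u.commutes _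

theorem rU_norm (hR1 : ∀ n : ℕ, Adm Dt 𝒟 ((maximalIdeal R ^ (n + 1)).comap u)) :
    Dt.Normalized (rU u) := by
  have e : ∀ w : Gal →₀ 𝒪, lin w (rU u) = (lin w (gen 𝒪)).map u := fun w => lin_map u w (gen 𝒪)
  have e' : ∀ (I : Ideal (UU 𝒪)) (w : Gal →₀ 𝒪),
      lin w (taut I) = (lin w (gen 𝒪)).map (Ideal.Quotient.mkₐ 𝒪 I) :=
    fun I w => lin_map (Ideal.Quotient.mkₐ 𝒪 I) w (gen 𝒪)
  refine ⟨?_, ?_, ?_⟩
  · rw [e, Matrix.map_apply]
    apply u_eq_zero hR1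
    intro I hI
    obtain ⟨_, hT⟩ := hI
    have := hT.norm.1
    rw [e', Matrix.map_apply] at this
    exact Ideal.Quotient.eq_zero_iff_mem.mp this
  · rw [e, Matrix.map_apply]
    apply u_eq_zero hR1
    intro I hI
    obtain ⟨_, hT⟩ := hI
    have := hT.norm.2.1
    rw [e', Matrix.map_apply] at this
    exact Ideal.Quotient.eq_zero_iff_mem.mp this
  · rw [e, Matrix.map_apply, ← sub_eq_zero, ← map_one u, ← map_sub]
    apply u_eq_zero hR1
    intro I hI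
    obtain ⟨_, hT⟩ := hI
    have := hT.norm.2.2
    rw [e', Matrix.map_apply] at this
    apply Ideal.Quotient.eq_zero_iff_mem.mp
    rw [map_sub, map_one, sub_eq_zero]
    exact this

theorem rU_cont (hR1 : ∀ n : ℕ, Adm Dt 𝒟 ((maximalIdeal R ^ (n + 1)).comap u)) :
    MatCont (rU u) := by
  intro n
  cases n with
  | zero => exact ⟨⊥, inferInstance, fun σ _ i j => by simp⟩
  | succ n =>
    obtain ⟨_, hT⟩ := hR1 n
    obtain ⟨ρ, hm, -⟩ := hT.type
    have := hT.test.isArtinian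
    obtain ⟨L, hL, h1⟩ := hm.cont.finLevel
    refine ⟨L, hL, fun σ hσ i j => ?_⟩
    have h2 := congrFun (congrFun (h1 σ hσ) i) j
    have h3 : Ideal.Quotient.mk ((maximalIdeal R ^ (n + 1)).comap u)
        (gen 𝒪 σ i j - (1 : M2 (UU 𝒪)) i j) = 0 := by
      rw [map_sub, sub_eq_zero]
      refine h2.trans ?_
      by_cases hij : i = j
      · subst hij; simp
      · simp [Matrix.one_apply_ne hij]
    have h4 := Ideal.Quotient.eq_zero_iff_mem.mp h3
    have h5 : u (gen 𝒪 σ i j - (1 : M2 (UU 𝒪)) i j) ∈ maximalIdeal R ^ (n + 1) := h4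
    convert h5 using 1
    rw [map_sub, Matrix.sub_apply]
    congr 1
    by_cases hij : i = j
    · subst hij; simp
    · simp [Matrix.one_apply_ne hij]

end

end Fermat.Agent.S53lib
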